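import Mathlib
import Fermat.Prelude.Def_ModularCurve_IgusaScheme
import Fermat.Prelude.Def_ModularCurve_X0ModL
import Fermat.Agent.H27.Igusa.Defs

/-!
# IG-Dtransfer: Hecke data from `ℂ` to any field

The formal Hecke data of `Fermat.Agent.H27.HeckeDataOver` are polynomial identities between
Laurent series whose coefficients live in `ℤ[ζ_p]`.  Hence they can be pulled back along an
injective coefficient homomorphism and pushed forward along any coefficient homomorphism.
-/

set_option autoImplicit false

noncomputable section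

open ModularCurve ModularCurve.IgusaScheme Fermat.Agent.H27

namespace Fermat.Agent.H67

section Compat

variable {R S : Type*} [CommRing R] [CommRing S] (f : R →+* S)

theorem coeffMap_injective_of_injective (hf : Function.Injective f) :
    Function.Injective (coeffMap f) := by
  intro x y h
  ext n
  apply hf
  have := congrArg (fun z => z.coeff n) h
  simpa using this

theorem coeffMap_twist (ζ : Rˣ) (x : LaurentSeries R) :
    coeffMap f (twist ζ x) = twist (Units.map (f : R →* S) ζ) (coeffMap f x) := by
  ext n
  rw [coeffMap_coeff, twist_coeff, twist_coeff, coeffMap_coeff, map_mul]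
  congr 1
  rw [← map_zpow]
  rfl

theorem powerSeries_map_intCast_map (P : PowerSeries ℤ) :
    (P.map (Int.castRingHom R)).map f = P.map (Int.castRingHom S) := by
  ext n
  simp [PowerSeries.coeff_map]

theorem coeffMap_deltaS : coeffMap f (deltaS R) = deltaS S := by
  rw [deltaS, map_mul, coeffMap_single, map_one, coeffMap_ofPowerSeries,
    powerSeries_map_intCast_map, deltaS]

theorem coeffMap_deltaInvS : coeffMap f (deltaInvS R) = deltaInvS S := by
  rw [deltaInvS, map_mul, coeffMap_single, map_one, coeffMap_ofPowerSeries,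
    powerSeries_map_intCast_map, deltaInvS]

variable (p : ℕ) [NeZero p]

theorem coeffMap_baseS : coeffMap f (baseS R p) = baseS S p := by
  rw [baseS, coeffMap_qExpand, coeffMap_jqModC, baseS]

theorem coeffMap_rootInf : coeffMap f (rootInf R p) = rootInf S p := by
  rw [rootInf, coeffMap_qExpand, coeffMap_qExpand, coeffMap_jqModC, rootInf]

theorem coeffMap_rootFin (ζ : Rˣ) :
    coeffMap f (rootFin ζ) = rootFin (Units.map (f : R →* S) ζ) := by
  rw [rootFin, coeffMap_twist, coeffMap_jqModC, rootFin]

theorem coeffMap_unitInf : coeffMap f (unitInf R p) = unitInf S p := by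
  rw [unitInf, map_mul, map_mul, map_pow, map_natCast, coeffMap_qExpand, coeffMap_qExpand,
    coeffMap_qExpand, coeffMap_deltaS, coeffMap_deltaInvS, unitInf]

theorem coeffMap_unitFin (ζ : Rˣ) :
    coeffMap f (unitFin p ζ) = unitFin p (Units.map (f : R →* S) ζ) := by
  rw [unitFin, map_mul, coeffMap_twist, coeffMap_qExpand, coeffMap_deltaS, coeffMap_deltaInvS,
    unitFin]

theorem coeffMap_comp_evalAt (x : LaurentSeries R) :
    (coeffMap f).comp (evalAt x) = evalAt (coeffMap f x) := by
  apply Polynomial.ringHom_ext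
  · intro n
    simp [evalAt]
  · simp [evalAt]

theorem map_map_evalAt (x : LaurentSeries R) (P : Polynomial (Polynomial ℤ)) :
    (P.map (evalAt x)).map (coeffMap f) = P.map (evalAt (coeffMap f x)) := by
  rw [Polynomial.map_map, coeffMap_comp_evalAt]

end Compat

section Transfer

variable {R S : Type*} [CommRing R] [CommRing S] (f : R →+* S) {p : ℕ} [NeZero p]

theorem map_factor_root (ζ : Rˣ) :
    ((Polynomial.X - Polynomial.C (rootInf R p)) *
        ∏ b ∈ Finset.range p, (Polynomial.X - Polynomial.C (rootFin (ζ ^ b)))).map (coeffMap f) =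
      (Polynomial.X - Polynomial.C (rootInf S p)) *
        ∏ b ∈ Finset.range p,
          (Polynomial.X - Polynomial.C (rootFin ((Units.map (f : R →* S) ζ) ^ b))) := by
  rw [Polynomial.map_mul, Polynomial.map_prod, Polynomial.map_sub, Polynomial.map_X,
    Polynomial.map_C, coeffMap_rootInf]
  congr 1
  refine Finset.prod_congr rfl fun b _ => ?_
  rw [Polynomial.map_sub, Polynomial.map_X, Polynomial.map_C, coeffMap_rootFin, map_pow]

theorem map_factor_unit (ζ : Rˣ) :
    ((Polynomial.X - Polynomial.C (unitInf R p)) *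
        ∏ b ∈ Finset.range p, (Polynomial.X - Polynomial.C (unitFin p (ζ ^ b)))).map
          (coeffMap f) =
      (Polynomial.X - Polynomial.C (unitInf S p)) *
        ∏ b ∈ Finset.range p,
          (Polynomial.X - Polynomial.C (unitFin p ((Units.map (f : R →* S) ζ) ^ b))) := by
  rw [Polynomial.map_mul, Polynomial.map_prod, Polynomial.map_sub, Polynomial.map_X,
    Polynomial.map_C, coeffMap_unitInf]
  congr 1
  refine Finset.prod_congr rfl fun b _ => ?_
  rw [Polynomial.map_sub, Polynomial.map_X, Polynomial.map_C, coeffMap_unitFin, map_pow]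

/-- image under `coeffMap f` of the left-hand side of the interpolation identity -/
theorem coeffMap_eval_L (L : Polynomial (Polynomial ℤ)) (x y : LaurentSeries R) :
    coeffMap f ((L.map (evalAt x)).eval y) =
      (L.map (evalAt (coeffMap f x))).eval (coeffMap f y) := by
  rw [← Polynomial.eval_map_apply, map_map_evalAt]

/-- image under `coeffMap f` of the right-hand side of the interpolation identity -/
theorem coeffMap_eval_derivative (Φ : Polynomial (Polynomial ℤ)) (u x y : LaurentSeries R) :
    coeffMap f (u * ((Φ.map (evalAt x)).derivative).eval y) =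
      coeffMap f u * ((Φ.map (evalAt (coeffMap f x))).derivative).eval (coeffMap f y) := by
  rw [map_mul, ← Polynomial.eval_map_apply, ← Polynomial.derivative_map, map_map_evalAt]

/-- Hecke data can be pushed forward along any homomorphism of coefficient rings. -/
def heckeDataOverMap (ζ : Rˣ) (D : HeckeDataOver p R ζ) :
    HeckeDataOver p S (Units.map (f : R →* S) ζ) where
  Φ := D.Φ
  Ψ := D.Ψ
  L := D.L
  Φ_monic := D.Φ_monic
  Φ_natDegree := D.Φ_natDegree
  Ψ_monic := D.Ψ_monic
  Φ_factor := by
    have h := congrArg (Polynomial.map (coeffMap f)) D.Φ_factor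
    rwa [map_map_evalAt, coeffMap_baseS, map_factor_root] at h
  Ψ_root := by
    have h := congrArg (coeffMap f) D.Ψ_root
    rwa [coeffMap_eval_L, coeffMap_baseS, coeffMap_unitInf, map_zero] at h
  L_inf := by
    have h := congrArg (coeffMap f) D.L_inf
    rwa [coeffMap_eval_L, coeffMap_eval_derivative, coeffMap_baseS, coeffMap_rootInf,
      coeffMap_unitInf] at h

/-- Hecke data can be pulled back along an injective homomorphism of coefficient rings. -/
def heckeDataOverOfInjective (hf : Function.Injective f) (ζ : Rˣ)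
    (D : HeckeDataOver p S (Units.map (f : R →* S) ζ)) : HeckeDataOver p R ζ where
  Φ := D.Φ
  Ψ := D.Ψ
  L := D.L
  Φ_monic := D.Φ_monic
  Φ_natDegree := D.Φ_natDegree
  Ψ_monic := D.Ψ_monic
  Φ_factor := by
    apply Polynomial.map_injective (coeffMap f) (coeffMap_injective_of_injective f hf)
    rw [map_map_evalAt, coeffMap_baseS, map_factor_root]
    exact D.Φ_factor
  Ψ_root := by
    apply coeffMap_injective_of_injective f hf
    rw [coeffMap_eval_L, coeffMap_baseS, coeffMap_unitInf, map_zero]
    exact D.Ψ_root
  L_inf := by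
    apply coeffMap_injective_of_injective f hf
    rw [coeffMap_eval_L, coeffMap_eval_derivative, coeffMap_baseS, coeffMap_rootInf,
      coeffMap_unitInf]
    exact D.L_inf

end Transfer

section Cyclotomic

/-- the evaluation `ℤ[X]/(Φ_p) → K` at a primitive `p`-th root of unity of a field of
characteristic zero is injective -/
theorem adjoinRoot_cyclotomic_lift_injective {K : Type*} [Field K] [CharZero K] (p : ℕ)
    (hpos : 0 < p) (μ : K) (hμ : IsPrimitiveRoot μ p)
    (h0 : Polynomial.eval₂ (Int.castRingHom K) μ (Polynomial.cyclotomic p ℤ) = 0) :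
    Function.Injective (AdjoinRoot.lift (Int.castRingHom K) μ h0) := by
  rw [injective_iff_map_eq_zero]
  intro x hx
  obtain ⟨g, rfl⟩ := AdjoinRoot.mk_surjective x
  rw [AdjoinRoot.lift_mk] at hx
  rw [AdjoinRoot.mk_eq_zero, Polynomial.cyclotomic_eq_minpoly hμ hpos]
  apply minpoly.isIntegrallyClosed_dvd (hμ.isIntegral hpos)
  rw [Polynomial.aeval_def]
  convert hx using 2
  exact RingHom.ext_int _ _

theorem eval₂_cyclotomic_eq_zero {K : Type*} [CommRing K] [IsDomain K] (p : ℕ) (hpos : 0 < p)
    (μ : K) (hμ : IsPrimitiveRoot μ p) :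
    Polynomial.eval₂ (Int.castRingHom K) μ (Polynomial.cyclotomic p ℤ) = 0 := by
  rw [Polynomial.eval₂_eq_eval_map, Polynomial.map_cyclotomic_int]
  exact hμ.isRoot_cyclotomic hpos

theorem adjoinRoot_cyclotomic_root_pow (p : ℕ) :
    (AdjoinRoot.root (Polynomial.cyclotomic p ℤ)) ^ p = 1 := by
  have h := AdjoinRoot.mk_eq_zero.2 (Polynomial.cyclotomic.dvd_X_pow_sub_one p ℤ)
  rw [map_sub, map_pow, AdjoinRoot.mk_X, map_one, sub_eq_zero] at h
  exact h

end Cyclotomic

/-- **IG-Dtransfer**: formal Hecke data over `ℂ` give formal Hecke data over every field. -/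
theorem hasHeckeData_of_complex (h : HasHeckeData ℂ) (k : Type*) [Field k] : HasHeckeData k := by
  intro p _ hp ζ hζ
  have hpos : 0 < p := hp.pos
  have hζC : IsPrimitiveRoot (Complex.exp (2 * Real.pi * Complex.I / p)) p :=
    Complex.isPrimitiveRoot_exp p hp.ne_zero
  have hunit : IsUnit (AdjoinRoot.root (Polynomial.cyclotomic p ℤ)) :=
    IsUnit.of_pow_eq_one (adjoinRoot_cyclotomic_root_pow p) hp.ne_zero
  have h0C := eval₂_cyclotomic_eq_zero p hpos _ hζC
  have h0k := eval₂_cyclotomic_eq_zero p hpos _ hζ
  have ha := adjoinRoot_cyclotomic_lift_injective p hpos _ hζC h0C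
  have hCroot : IsPrimitiveRoot
      ((Units.map (AdjoinRoot.lift (Int.castRingHom ℂ) _ h0C : _ →* ℂ) hunit.unit : ℂˣ) : ℂ)
      p := by
    rw [Units.coe_map, IsUnit.unit_spec]
    simpa using hζC
  obtain ⟨D⟩ := h p hp _ hCroot
  have e : Units.map (AdjoinRoot.lift (Int.castRingHom k) _ h0k : _ →* k) hunit.unit = ζ := by
    apply Units.ext
    rw [Units.coe_map, IsUnit.unit_spec]
    simp
  exact ⟨e ▸ heckeDataOverMap (AdjoinRoot.lift (Int.castRingHom k) _ h0k) hunit.unit
    (heckeDataOverOfInjective _ ha hunit.unit D)⟩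

end Fermat.Agent.H67
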