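import Mathlib

/-!
# KL-CONN: connectedness of the special fibre (pure algebra)

Setting: `A` a noetherian commutative ring, `π : A`, `E` a commutative `A`-algebra, `x y : E`
with `x * y = 1`, two `A`-subalgebras `Rf ∋ x` ("finite chart") and `Ri ∋ y` ("chart at
infinity") of `E` such that

* `Rf` is generated as a module over `A[x]` by finitely many elements,
* every element of `Ri` is `y ^ k * (element of Rf)` and vice versa (`Rf[1/x] = Ri[x]`),
* `Rf ∩ Ri` consists of constants (the image of `A`),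
* constants are `π`-saturated in `Rf`, and `A / π` has only the trivial idempotents.

Then a pair of idempotents modulo `π` on the two charts which agree on the overlap
`Rf ⊔ Ri = Rf[1/x]` is trivial: both are `0` or both are `1` modulo `π`.

Proof: `H¹ = (Rf ⊔ Ri) / (Rf + Ri)` is a finitely generated `A`-module, so its `π`-power torsion
is killed by some `π ^ t`.  Lift the idempotents to idempotents `aₙ`, `bₙ` modulo `π ^ n`,
`n = t + 1`; by uniqueness of idempotent lifts `aₙ - bₙ = π ^ n c`, so `π ^ t c = u + v` with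
`u ∈ Rf`, `v ∈ Ri`, and `aₙ - π u = bₙ + π v` is a constant, idempotent modulo `π`.
-/

set_option autoImplicit false

namespace Fermat.Agent.H67.KLConn

variable {A E : Type*} [CommRing A] [CommRing E] [Algebra A E]

/-- `z ∈ π ^ n R`. -/
def PiDvd (π : A) (R : Subalgebra A E) (n : ℕ) (z : E) : Prop := ∃ r ∈ R, z = (π ^ n) • r

namespace PiDvd

variable {π : A} {R R' : Subalgebra A E} {n m : ℕ} {z w : E}

theorem mem (h : PiDvd π R n z) : z ∈ R := by
  obtain ⟨r, hr, rfl⟩ := h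
  exact R.smul_mem hr _

theorem of_mem (h : z ∈ R) : PiDvd π R 0 z := ⟨z, h, by simp⟩

theorem add (h : PiDvd π R n z) (h' : PiDvd π R n w) : PiDvd π R n (z + w) := by
  obtain ⟨r, hr, rfl⟩ := h
  obtain ⟨r', hr', rfl⟩ := h'
  exact ⟨r + r', R.add_mem hr hr', by rw [smul_add]⟩

theorem neg (h : PiDvd π R n z) : PiDvd π R n (-z) := by
  obtain ⟨r, hr, rfl⟩ := h
  exact ⟨-r, R.neg_mem hr, by rw [smul_neg]⟩

theorem sub (h : PiDvd π R n z) (h' : PiDvd π R n w) : PiDvd π R n (z - w) := by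
  rw [sub_eq_add_neg]
  exact h.add h'.neg

theorem mul_right (h : PiDvd π R n z) (hw : w ∈ R) : PiDvd π R n (z * w) := by
  obtain ⟨r, hr, rfl⟩ := h
  exact ⟨r * w, R.mul_mem hr hw, by rw [smul_mul_assoc]⟩

theorem mul_left (hw : w ∈ R) (h : PiDvd π R n z) : PiDvd π R n (w * z) := by
  rw [mul_comm]
  exact h.mul_right hw

theorem mul (h : PiDvd π R n z) (h' : PiDvd π R m w) : PiDvd π R (n + m) (z * w) := by
  obtain ⟨r, hr, rfl⟩ := h
  obtain ⟨r', hr', rfl⟩ := h'
  refine ⟨r * r', R.mul_mem hr hr', ?_⟩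
  rw [smul_mul_smul_comm, pow_add]

theorem mono (h : PiDvd π R n z) (hmn : m ≤ n) : PiDvd π R m z := by
  obtain ⟨r, hr, rfl⟩ := h
  obtain ⟨k, rfl⟩ := Nat.exists_eq_add_of_le hmn
  exact ⟨π ^ k • r, R.smul_mem hr _, by rw [smul_smul, pow_add]⟩

theorem of_le (h : PiDvd π R n z) (hR : R ≤ R') : PiDvd π R' n z := by
  obtain ⟨r, hr, rfl⟩ := h
  exact ⟨r, hR hr, rfl⟩

theorem smul_pow (h : PiDvd π R n z) (k : ℕ) : PiDvd π R (k + n) (π ^ k • z) := by
  obtain ⟨r, hr, rfl⟩ := h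
  exact ⟨r, hr, by rw [smul_smul, pow_add]⟩

end PiDvd

/-- Lifting idempotents modulo `π` to idempotents modulo `π ^ n` (Newton iteration
`a ↦ 3 a² - 2 a³`). -/
theorem exists_lift (π : A) (R : Subalgebra A E) {a : E} (ha : a ∈ R)
    (h : PiDvd π R 1 (a ^ 2 - a)) (n : ℕ) :
    ∃ a' ∈ R, PiDvd π R 1 (a' - a) ∧ PiDvd π R (n + 1) (a' ^ 2 - a') := by
  induction n with
  | zero => exact ⟨a, ha, ⟨0, R.zero_mem, by simp⟩, h⟩
  | succ n ih =>
    obtain ⟨a', ha', h1, h2⟩ := ih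
    have hmem : 3 * a' ^ 2 - 2 * a' ^ 3 ∈ R := by
      refine R.sub_mem (R.mul_mem ?_ (R.pow_mem ha' 2)) (R.mul_mem ?_ (R.pow_mem ha' 3))
      · exact_mod_cast R.natCast_mem 3
      · exact_mod_cast R.natCast_mem 2
    refine ⟨3 * a' ^ 2 - 2 * a' ^ 3, hmem, ?_, ?_⟩
    · have e : 3 * a' ^ 2 - 2 * a' ^ 3 - a = (a' ^ 2 - a') * (1 - 2 * a') + (a' - a) := by ring
      rw [e]
      refine PiDvd.add ((h2.mono (by omega)).mul_right ?_) h1
      refine R.sub_mem R.one_mem (R.mul_mem ?_ ha')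
      exact_mod_cast R.natCast_mem 2
    · have e : (3 * a' ^ 2 - 2 * a' ^ 3) ^ 2 - (3 * a' ^ 2 - 2 * a' ^ 3) =
          (a' ^ 2 - a') * (a' ^ 2 - a') * (-((3 - 2 * a') * (2 * a' + 1))) := by ring
      rw [e]
      refine PiDvd.mul_right ((h2.mul h2).mono (by omega)) (R.neg_mem (R.mul_mem ?_ ?_))
      · refine R.sub_mem ?_ (R.mul_mem ?_ ha')
        · exact_mod_cast R.natCast_mem 3
        · exact_mod_cast R.natCast_mem 2
      · refine R.add_mem (R.mul_mem ?_ ha') R.one_mem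
        exact_mod_cast R.natCast_mem 2

/-- Uniqueness of idempotent lifts: two idempotents modulo `π ^ n` which are congruent modulo `π`
are congruent modulo `π ^ n`. -/
theorem lift_unique (π : A) (R : Subalgebra A E) {a b : E} (n : ℕ)
    (ha : PiDvd π R n (a ^ 2 - a)) (hb : PiDvd π R n (b ^ 2 - b))
    (ha' : a ∈ R) (hb' : b ∈ R) (hab : PiDvd π R 1 (a - b)) :
    PiDvd π R n (a - b) := by
  have h3 : PiDvd π R n ((a - b) ^ 3 - (a - b)) := by
    have e : (a - b) ^ 3 - (a - b) =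
        (a ^ 2 - a) * (1 + a - 3 * b) + (b ^ 2 - b) * (3 * a - 1 - b) := by ring
    rw [e]
    refine PiDvd.add (ha.mul_right ?_) (hb.mul_right ?_)
    · refine R.sub_mem (R.add_mem R.one_mem ha') (R.mul_mem ?_ hb')
      exact_mod_cast R.natCast_mem 3
    · refine R.sub_mem (R.sub_mem (R.mul_mem ?_ ha') R.one_mem) hb'
      exact_mod_cast R.natCast_mem 3
  have key : ∀ j : ℕ, j + 1 ≤ n → PiDvd π R (j + 1) (a - b) := by
    intro j
    induction j with
    | zero => intro _; exact hab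
    | succ j ih =>
      intro hj
      have hd := ih (by omega)
      have hcube : PiDvd π R (j + 2) ((a - b) ^ 3) := by
        have := (hd.mul hd).mul hd
        have e : (a - b) ^ 3 = (a - b) * (a - b) * (a - b) := by ring
        rw [e]
        exact this.mono (by omega)
      have e : a - b = (a - b) ^ 3 - ((a - b) ^ 3 - (a - b)) := by ring
      rw [e]
      exact hcube.sub (h3.mono (by omega))
  rcases Nat.eq_zero_or_pos n with h0 | hpos
  · subst h0
    exact PiDvd.of_mem hab.mem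
  · obtain ⟨j, rfl⟩ : ∃ j, n = j + 1 := ⟨n - 1, by omega⟩
    exact key j le_rfl


/-! ### The overlap -/

/-- The elements which land in `Rf` after multiplication by a power of `x`. -/
def powSub (x : E) (Rf : Subalgebra A E) (hx : x ∈ Rf) : Subalgebra A E where
  carrier := {z | ∃ k : ℕ, x ^ k * z ∈ Rf}
  mul_mem' := by
    rintro z w ⟨k, hk⟩ ⟨l, hl⟩
    refine ⟨k + l, ?_⟩
    have e : x ^ (k + l) * (z * w) = (x ^ k * z) * (x ^ l * w) := by ring
    rw [e]
    exact Rf.mul_mem hk hl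
  add_mem' := by
    rintro z w ⟨k, hk⟩ ⟨l, hl⟩
    refine ⟨k + l, ?_⟩
    have e : x ^ (k + l) * (z + w) = x ^ l * (x ^ k * z) + x ^ k * (x ^ l * w) := by ring
    rw [e]
    exact Rf.add_mem (Rf.mul_mem (Rf.pow_mem hx l) hk) (Rf.mul_mem (Rf.pow_mem hx k) hl)
  algebraMap_mem' := by
    intro r
    exact ⟨0, by simpa using Rf.algebraMap_mem r⟩

theorem exists_pow_mul_mem (x : E) (Rf Ri : Subalgebra A E) (hx : x ∈ Rf)
    (hmid : ∀ r ∈ Ri, ∃ k : ℕ, x ^ k * r ∈ Rf) {z : E} (hz : z ∈ Rf ⊔ Ri) :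
    ∃ k : ℕ, x ^ k * z ∈ Rf := by
  have h : Rf ⊔ Ri ≤ powSub x Rf hx := by
    refine sup_le ?_ ?_
    · intro r hr
      exact ⟨0, by simpa using hr⟩
    · intro r hr
      exact hmid r hr
  exact h hz

theorem pow_mul_pow_of_le {x y : E} (hxy : x * y = 1) {k d : ℕ} (h : k ≤ d) :
    y ^ k * x ^ d = x ^ (d - k) := by
  obtain ⟨j, rfl⟩ := Nat.exists_eq_add_of_le h
  have e : y ^ k * x ^ (k + j) = (x * y) ^ k * x ^ j := by ring
  rw [e, hxy, one_pow, one_mul]
  congr 1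
  omega

theorem pow_mul_pow_of_ge {x y : E} (hxy : x * y = 1) {k d : ℕ} (h : d ≤ k) :
    y ^ k * x ^ d = y ^ (k - d) := by
  obtain ⟨j, rfl⟩ := Nat.exists_eq_add_of_le h
  have e : y ^ (d + j) * x ^ d = (x * y) ^ d * y ^ j := by ring
  rw [e, hxy, one_pow, one_mul]
  congr 1
  omega

/-- The finitely many elements `y ^ e * b`, `e < M`. -/
noncomputable def gapSet (y b : E) (M : ℕ) : Finset E :=
  open Classical in (Finset.range M).image fun e => y ^ e * b

theorem monomial_mem {x y : E} (hxy : x * y = 1) (Rf Ri : Subalgebra A E) (hx : x ∈ Rf)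
    (hy : y ∈ Ri) {b : E} (hb : b ∈ Rf) {M : ℕ} (hM : y ^ M * b ∈ Ri) (k d : ℕ) :
    y ^ k * x ^ d * b ∈ (Subalgebra.toSubmodule Rf ⊔ Subalgebra.toSubmodule Ri) ⊔
      Submodule.span A (gapSet y b M : Set E) := by
  classical
  rcases le_total k d with h | h
  · rw [pow_mul_pow_of_le hxy h]
    exact Submodule.mem_sup_left (Submodule.mem_sup_left (Rf.mul_mem (Rf.pow_mem hx _) hb))
  · rw [pow_mul_pow_of_ge hxy h]
    by_cases he : k - d < M
    · refine Submodule.mem_sup_right (Submodule.subset_span ?_)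
      simp only [gapSet, Finset.coe_image, Finset.coe_range, Set.mem_image, Set.mem_Iio]
      exact ⟨k - d, he, rfl⟩
    · obtain ⟨j, hj⟩ := Nat.exists_eq_add_of_le (not_lt.mp he)
      rw [hj]
      have e : y ^ (M + j) * b = y ^ j * (y ^ M * b) := by ring
      rw [e]
      exact Submodule.mem_sup_left (Submodule.mem_sup_right (Ri.mul_mem (Ri.pow_mem hy _) hM))

theorem poly_mem {x y : E} (hxy : x * y = 1) (Rf Ri : Subalgebra A E) (hx : x ∈ Rf)
    (hy : y ∈ Ri) {b : E} (hb : b ∈ Rf) {M : ℕ} (hM : y ^ M * b ∈ Ri) (k : ℕ)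
    (p : Polynomial A) :
    y ^ k * (Polynomial.aeval x p * b) ∈
      (Subalgebra.toSubmodule Rf ⊔ Subalgebra.toSubmodule Ri) ⊔
        Submodule.span A (gapSet y b M : Set E) := by
  induction p using Polynomial.induction_on' with
  | add p q hp hq =>
    have e : y ^ k * (Polynomial.aeval x (p + q) * b) =
        y ^ k * (Polynomial.aeval x p * b) + y ^ k * (Polynomial.aeval x q * b) := by
      rw [map_add]; ring
    rw [e]
    exact Submodule.add_mem _ hp hq
  | monomial d c =>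
    have e : y ^ k * (Polynomial.aeval x (Polynomial.monomial d c) * b) =
        c • (y ^ k * x ^ d * b) := by
      rw [Polynomial.aeval_monomial, Algebra.smul_def]
      ring
    rw [e]
    exact Submodule.smul_mem _ _ (monomial_mem hxy Rf Ri hx hy hb hM k d)

/-- `Rf ⊔ Ri ⊆ Rf + Ri + (a finitely generated `A`-module)`. -/
theorem exists_fg_complement {x y : E} (hxy : x * y = 1) (Rf Ri : Subalgebra A E) (hx : x ∈ Rf)
    (hy : y ∈ Ri)
    (hgen : ∃ s : Finset E, (∀ b ∈ s, b ∈ Rf) ∧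
      ∀ r ∈ Rf, ∃ p : E → Polynomial A, r = ∑ b ∈ s, Polynomial.aeval x (p b) * b)
    (hmid_f : ∀ r ∈ Rf, ∃ k : ℕ, y ^ k * r ∈ Ri)
    (hmid_i : ∀ r ∈ Ri, ∃ k : ℕ, x ^ k * r ∈ Rf) :
    ∃ N : Submodule A E, N.FG ∧ ∀ z ∈ Rf ⊔ Ri,
      z ∈ (Subalgebra.toSubmodule Rf ⊔ Subalgebra.toSubmodule Ri) ⊔ N := by
  classical
  obtain ⟨s, hs, hspan⟩ := hgen
  choose! M hM using hmid_f
  refine ⟨Submodule.span A ((s.biUnion fun b => gapSet y b (M b) : Finset E) : Set E),
    ⟨_, rfl⟩, ?_⟩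
  intro z hz
  obtain ⟨k, hk⟩ := exists_pow_mul_mem x Rf Ri hx hmid_i hz
  obtain ⟨p, hp⟩ := hspan _ hk
  have hz' : z = ∑ b ∈ s, y ^ k * (Polynomial.aeval x (p b) * b) := by
    rw [← Finset.mul_sum, ← hp]
    have e : y ^ k * (x ^ k * z) = (x * y) ^ k * z := by ring
    rw [e, hxy, one_pow, one_mul]
  rw [hz']
  refine Submodule.sum_mem _ fun b hb => ?_
  have h1 := poly_mem hxy Rf Ri hx hy (hs b hb) (hM b (hs b hb)) k (p b)
  have hmono : Submodule.span A (gapSet y b (M b) : Set E) ≤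
      Submodule.span A ((s.biUnion fun b => gapSet y b (M b) : Finset E) : Set E) := by
    apply Submodule.span_mono
    intro w hw
    simp only [Finset.coe_biUnion, Finset.mem_coe, Set.mem_iUnion, exists_prop]
    exact ⟨b, hb, hw⟩
  exact (sup_le_sup le_rfl hmono) h1

/-! ### Bounded torsion -/

theorem exists_torsion_bound [IsNoetherianRing A] (π : A) (P N : Submodule A E) (hN : N.FG) :
    ∃ t : ℕ, ∀ n : ℕ, ∀ c ∈ P ⊔ N, π ^ n • c ∈ P → π ^ t • c ∈ P := by
  have hnoeth : IsNoetherian A N := isNoetherian_of_fg_of_noetherian N hN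
  let L : ℕ → Submodule A N := fun n =>
    Submodule.comap N.subtype (Submodule.comap (LinearMap.lsmul A E (π ^ n)) P)
  have hLmem : ∀ n (g : N), g ∈ L n ↔ π ^ n • (g : E) ∈ P := by
    intro n g
    simp [L]
  have hmono : Monotone L := by
    refine monotone_nat_of_le_succ fun n g hg => ?_
    rw [hLmem] at hg ⊢
    rw [pow_succ', mul_smul]
    exact P.smul_mem _ hg
  obtain ⟨t, ht⟩ := monotone_stabilizes_iff_noetherian.mpr hnoeth ⟨L, hmono⟩
  refine ⟨t, fun n c hc hn => ?_⟩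
  obtain ⟨u, hu, g, hg, rfl⟩ := Submodule.mem_sup.mp hc
  have hgn : (⟨g, hg⟩ : N) ∈ L n := by
    rw [hLmem]
    have e : π ^ n • g = π ^ n • (u + g) - π ^ n • u := by rw [smul_add]; ring
    rw [e]
    exact P.sub_mem hn (P.smul_mem _ hu)
  have hgt : (⟨g, hg⟩ : N) ∈ L t := by
    rcases le_total n t with h | h
    · exact hmono h hgn
    · have := ht n h
      simp only [OrderHom.coe_mk] at this
      rw [this]
      exact hgn
  rw [hLmem] at hgt
  rw [smul_add]
  exact P.add_mem (P.smul_mem _ hu) hgt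

/-! ### The connectedness lemma -/

/-- **KL-CONN.**  A pair of idempotents modulo `π` on the two charts `Rf`, `Ri` which agree
modulo `π` on the overlap `Rf ⊔ Ri` is trivial. -/
theorem connected [IsNoetherianRing A] (π : A) {x y : E} (hxy : x * y = 1)
    (Rf Ri : Subalgebra A E) (hx : x ∈ Rf) (hy : y ∈ Ri)
    (hgen : ∃ s : Finset E, (∀ b ∈ s, b ∈ Rf) ∧
      ∀ r ∈ Rf, ∃ p : E → Polynomial A, r = ∑ b ∈ s, Polynomial.aeval x (p b) * b)
    (hmid_f : ∀ r ∈ Rf, ∃ k : ℕ, y ^ k * r ∈ Ri)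
    (hmid_i : ∀ r ∈ Ri, ∃ k : ℕ, x ^ k * r ∈ Rf)
    (hcap : ∀ z, z ∈ Rf → z ∈ Ri → ∃ α : A, algebraMap A E α = z)
    (hsat : ∀ α : A, PiDvd π Rf 1 (algebraMap A E α) → π ∣ α)
    (hconn : ∀ α : A, π ∣ α ^ 2 - α → π ∣ α ∨ π ∣ α - 1)
    {a b : E} (ha : a ∈ Rf) (hb : b ∈ Ri)
    (ha2 : PiDvd π Rf 1 (a ^ 2 - a)) (hb2 : PiDvd π Ri 1 (b ^ 2 - b))
    (hab : PiDvd π (Rf ⊔ Ri) 1 (a - b)) :
    (PiDvd π Rf 1 a ∧ PiDvd π Ri 1 b) ∨ (PiDvd π Rf 1 (a - 1) ∧ PiDvd π Ri 1 (b - 1)) := by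
  obtain ⟨N, hNfg, hN⟩ := exists_fg_complement hxy Rf Ri hx hy hgen hmid_f hmid_i
  obtain ⟨t, ht⟩ := exists_torsion_bound π
    (Subalgebra.toSubmodule Rf ⊔ Subalgebra.toSubmodule Ri) N hNfg
  obtain ⟨a', ha', ha'1, ha'2⟩ := exists_lift π Rf ha ha2 t
  obtain ⟨b', hb', hb'1, hb'2⟩ := exists_lift π Ri hb hb2 t
  have hle_f : Rf ≤ Rf ⊔ Ri := le_sup_left
  have hle_i : Ri ≤ Rf ⊔ Ri := le_sup_right
  have hd1 : PiDvd π (Rf ⊔ Ri) 1 (a' - b') := by
    have e : a' - b' = (a' - a) + (a - b) - (b' - b) := by ring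
    rw [e]
    exact ((ha'1.of_le hle_f).add hab).sub (hb'1.of_le hle_i)
  obtain ⟨c, hc, hcd⟩ := lift_unique π (Rf ⊔ Ri) (t + 1) (ha'2.of_le hle_f) (hb'2.of_le hle_i)
    (hle_f ha') (hle_i hb') hd1
  have hcP : π ^ (t + 1) • c ∈ Subalgebra.toSubmodule Rf ⊔ Subalgebra.toSubmodule Ri := by
    rw [← hcd, sub_eq_add_neg]
    exact Submodule.add_mem_sup ha' (Ri.neg_mem hb')
  obtain ⟨u, hu, v, hv, huv⟩ := Submodule.mem_sup.mp (ht (t + 1) c (hN c hc) hcP)
  have hu' : u ∈ Rf := hu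
  have hv' : v ∈ Ri := hv
  have hdiff : a' - b' = π • u + π • v := by
    rw [hcd, pow_succ', mul_smul, ← huv, smul_add]
  -- the constant
  have heRf : a' - π • u ∈ Rf := Rf.sub_mem ha' (Rf.smul_mem hu' _)
  have heRi : a' - π • u ∈ Ri := by
    have e : a' - π • u = b' + π • v := by linear_combination hdiff
    rw [e]
    exact Ri.add_mem hb' (Ri.smul_mem hv' _)
  obtain ⟨α, hα⟩ := hcap _ heRf heRi
  have hpiu : PiDvd π Rf 1 (π • u) := ⟨u, hu', by rw [pow_one]⟩
  have hpiv : PiDvd π Ri 1 (π • v) := ⟨v, hv', by rw [pow_one]⟩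
  have hea : PiDvd π Rf 1 (algebraMap A E α - a) := by
    rw [hα]
    have e : a' - π • u - a = (a' - a) - π • u := by ring
    rw [e]
    exact ha'1.sub hpiu
  have heb : PiDvd π Ri 1 (algebraMap A E α - b) := by
    rw [hα]
    have e : a' - π • u - b = (b' - b) + π • v := by linear_combination hdiff
    rw [e]
    exact hb'1.add hpiv
  have hidem : PiDvd π Rf 1 (algebraMap A E (α ^ 2 - α)) := by
    have e : algebraMap A E (α ^ 2 - α) =
        (a ^ 2 - a) + (algebraMap A E α - a) * (algebraMap A E α + a - 1) := by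
      rw [map_sub, map_pow]; ring
    rw [e]
    refine ha2.add (hea.mul_right ?_)
    exact Rf.sub_mem (Rf.add_mem (Rf.algebraMap_mem α) ha) Rf.one_mem
  rcases hconn α (hsat _ hidem) with ⟨γ, hγ⟩ | ⟨γ, hγ⟩
  · left
    have hconst : ∀ R : Subalgebra A E, PiDvd π R 1 (algebraMap A E α) := by
      intro R
      refine ⟨algebraMap A E γ, R.algebraMap_mem γ, ?_⟩
      rw [hγ, pow_one, map_mul, Algebra.smul_def]
    constructor
    · have e : a = algebraMap A E α - (algebraMap A E α - a) := by ring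
      rw [e]
      exact (hconst Rf).sub hea
    · have e : b = algebraMap A E α - (algebraMap A E α - b) := by ring
      rw [e]
      exact (hconst Ri).sub heb
  · right
    have hconst : ∀ R : Subalgebra A E, PiDvd π R 1 (algebraMap A E α - 1) := by
      intro R
      refine ⟨algebraMap A E γ, R.algebraMap_mem γ, ?_⟩
      rw [pow_one, Algebra.smul_def, ← map_mul, ← hγ, map_sub, map_one]
    constructor
    · have e : a - 1 = (algebraMap A E α - 1) - (algebraMap A E α - a) := by ring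
      rw [e]
      exact (hconst Rf).sub hea
    · have e : b - 1 = (algebraMap A E α - 1) - (algebraMap A E α - b) := by ring
      rw [e]
      exact (hconst Ri).sub heb


/-- **KL-CONN**, for a prime element `π` (e.g. a uniformiser of a discrete valuation ring). -/
theorem connected_of_prime [IsNoetherianRing A] {π : A} (hπ : Prime π) {x y : E}
    (hxy : x * y = 1)
    (Rf Ri : Subalgebra A E) (hx : x ∈ Rf) (hy : y ∈ Ri)
    (hgen : ∃ s : Finset E, (∀ b ∈ s, b ∈ Rf) ∧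
      ∀ r ∈ Rf, ∃ p : E → Polynomial A, r = ∑ b ∈ s, Polynomial.aeval x (p b) * b)
    (hmid_f : ∀ r ∈ Rf, ∃ k : ℕ, y ^ k * r ∈ Ri)
    (hmid_i : ∀ r ∈ Ri, ∃ k : ℕ, x ^ k * r ∈ Rf)
    (hcap : ∀ z, z ∈ Rf → z ∈ Ri → ∃ α : A, algebraMap A E α = z)
    (hsat : ∀ α : A, PiDvd π Rf 1 (algebraMap A E α) → π ∣ α)
    {a b : E} (ha : a ∈ Rf) (hb : b ∈ Ri)
    (ha2 : PiDvd π Rf 1 (a ^ 2 - a)) (hb2 : PiDvd π Ri 1 (b ^ 2 - b))
    (hab : PiDvd π (Rf ⊔ Ri) 1 (a - b)) :
    (PiDvd π Rf 1 a ∧ PiDvd π Ri 1 b) ∨ (PiDvd π Rf 1 (a - 1) ∧ PiDvd π Ri 1 (b - 1)) := by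
  refine connected π hxy Rf Ri hx hy hgen hmid_f hmid_i hcap hsat ?_ ha hb ha2 hb2 hab
  intro α h
  have e : α ^ 2 - α = α * (α - 1) := by ring
  rw [e] at h
  exact hπ.dvd_or_dvd h

/-- Saturation of constants from `π`-torsion-freeness: if `E` has no `π`-torsion, the structure
map is injective, and every element `c` of `Rf` with `π c` constant is constant, then
constants are `π`-saturated in `Rf`. -/
theorem sat_of_forall {π : A} (Rf : Subalgebra A E)
    (hinj : Function.Injective (algebraMap A E))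
    (hc : ∀ c ∈ Rf, ∀ α : A, algebraMap A E α = π • c → ∃ β : A, algebraMap A E β = c)
    (htf : ∀ z : E, π • z = 0 → z = 0) :
    ∀ α : A, PiDvd π Rf 1 (algebraMap A E α) → π ∣ α := by
  rintro α ⟨r, hr, h⟩
  rw [pow_one] at h
  obtain ⟨β, hβ⟩ := hc r hr α h
  refine ⟨β, hinj ?_⟩
  rw [h, ← hβ, map_mul, Algebra.smul_def]

end Fermat.Agent.H67.KLConn
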