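import Mathlib
import Fermat.Agent.H72.FF.FlatInterfaces

/-!
# Boston-Lenstra-Ribet / Carayol (P-FF, block FF-F1)

`T` a commutative ring in which `2` is invertible, `V` free of rank two, `ρ : G → End_T(V)` whose
image spans `End_T(V)`.  If `τ : G → End_T(W)` satisfies the Cayley-Hamilton relation of `ρ`, then
`τ` factors through `ρ` via a `T`-algebra map `End_T(V) → End_T(W)`.

The proof works in the group algebra `T[G]`: the polarised identity
`xy + yx = t(x) y + t(y) x - t(x) t(y) + t(xy)` holds for the images in `End_T(W)` of all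
elements of `T[G]` (where `t = tr ∘ ρ`), and this forces the kernel of `T[G] → End_T(V)` to die
in `End_T(W)`.
-/

namespace Fermat.Agent.H67.BLR

section Abstract

variable {T : Type*} [CommRing T] {C : Type*} [Ring C] [Algebra T C]

/-- From the quadratic relation `X² - t X + d = 0` and a left inverse: `d X⁻¹ = t - X`. -/
theorem smul_inv_eq {X Xi : C} {t d : T} (hX : X * X - t • X + d • (1 : C) = 0)
    (hXi : Xi * X = 1) : d • Xi = t • (1 : C) - X := by
  have h := congrArg (fun Z => Xi * Z) hX
  simp only [mul_add, mul_sub, mul_zero, mul_smul_comm, mul_one, ← mul_assoc, hXi, one_mul] at h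
  linear_combination (norm := module) h

/-- The polarised Cayley-Hamilton identity for two invertible elements satisfying quadratic
relations with multiplicative constant terms. -/
theorem polarised_of_quadratic {X Y Xi Yi : C} {tg th tgh dg dh : T}
    (hX : X * X - tg • X + dg • (1 : C) = 0) (hY : Y * Y - th • Y + dh • (1 : C) = 0)
    (hXY : (X * Y) * (X * Y) - tgh • (X * Y) + (dg * dh) • (1 : C) = 0)
    (hXi : Xi * X = 1) (hYi : Yi * Y = 1) :
    X * Y + Y * X = tg • Y + th • X - (tg * th) • (1 : C) + tgh • (1 : C) := by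
  have ha := smul_inv_eq hX hXi
  have hb := smul_inv_eq hY hYi
  have hXYi : (Yi * Xi) * (X * Y) = 1 := by
    rw [mul_assoc, ← mul_assoc Xi, hXi, one_mul, hYi]
  have hc := smul_inv_eq hXY hXYi
  have hd : (dg * dh) • (Yi * Xi) = (dh • Yi) * (dg • Xi) := by
    rw [smul_mul_smul_comm, mul_comm]
  rw [hd, ha, hb] at hc
  simp only [sub_mul, mul_sub, smul_mul_assoc, mul_smul_comm, one_mul, mul_one, smul_sub,
    smul_smul] at hc
  linear_combination (norm := module) hc

/-- Bilinear extension of the polarised identity to the whole group algebra. -/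
theorem polarised_monoidAlgebra {G : Type*} [Group G] (τ : G →* C)
    (tr : MonoidAlgebra T G →ₗ[T] T) (d : G → T) (hd : ∀ g h, d (g * h) = d g * d h)
    (hτ : ∀ g, τ g * τ g - tr (MonoidAlgebra.of T G g) • τ g + d g • (1 : C) = 0)
    (u v : MonoidAlgebra T G) :
    MonoidAlgebra.lift T C G τ (u * v) + MonoidAlgebra.lift T C G τ (v * u)
      = tr u • MonoidAlgebra.lift T C G τ v + tr v • MonoidAlgebra.lift T C G τ u
        - (tr u * tr v) • (1 : C) + tr (u * v) • (1 : C) := by
  induction u using MonoidAlgebra.induction_on with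
  | of g =>
    induction v using MonoidAlgebra.induction_on with
    | of h =>
      rw [← map_mul (MonoidAlgebra.of T G), ← map_mul (MonoidAlgebra.of T G)]
      simp only [MonoidAlgebra.lift_of]
      rw [map_mul τ g h, map_mul τ h g]
      have hXY : (τ g * τ h) * (τ g * τ h) - tr (MonoidAlgebra.of T G (g * h)) • (τ g * τ h)
          + (d g * d h) • (1 : C) = 0 := by
        have := hτ (g * h)
        rwa [map_mul, hd] at this
      have hXi : τ g⁻¹ * τ g = 1 := by rw [← map_mul, inv_mul_cancel, map_one]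
      have hYi : τ h⁻¹ * τ h = 1 := by rw [← map_mul, inv_mul_cancel, map_one]
      exact polarised_of_quadratic (hτ g) (hτ h) hXY hXi hYi
    | add v w hv hw =>
      simp only [mul_add, add_mul, map_add, add_smul, smul_add]
      linear_combination (norm := module) hv + hw
    | smul r v hv =>
      simp only [mul_smul_comm, smul_mul_assoc, map_smul, smul_eq_mul]
      linear_combination (norm := module) r • hv
  | add u w hu hw =>
    simp only [mul_add, add_mul, map_add, add_smul, smul_add]
    linear_combination (norm := module) hu + hw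
  | smul r u hu =>
    simp only [mul_smul_comm, smul_mul_assoc, map_smul, smul_eq_mul]
    linear_combination (norm := module) r • hu

/-- Abstract kernel argument of Boston-Lenstra-Ribet. -/
theorem map_eq_zero_of_polarised {R : Type*} [Ring R] [Algebra T R] (fC : R →ₐ[T] C)
    (t : R →ₗ[T] T) (h2 : IsUnit (2 : T))
    (hI : ∀ u v : R, fC (u * v) + fC (v * u)
      = t u • fC v + t v • fC u - (t u * t v) • (1 : C) + t (u * v) • (1 : C))
    {x1 x2 y : R} (hx1 : t x1 = 0) (hx2 : t x2 = 0) (hu : t (x1 * x2) = 1)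
    (huu : t ((x1 * x2) * (x1 * x2)) = 1)
    (hy : t y = 0) (hx1y : t (x1 * y) = 0) (hx2y : t (x2 * y) = 0)
    (huy : t ((x1 * x2) * y) = 0) :
    fC y = 0 := by
  have h1 := hI x1 y
  have h2' := hI x2 y
  have h3 := hI (x1 * x2) y
  have h4 := hI (x1 * x2) (x1 * x2)
  simp only [hx1, hx2, hu, huu, hy, hx1y, hx2y, huy, zero_smul, map_mul, add_zero,
    mul_zero, sub_zero, one_smul, mul_one, sub_self] at h1 h2' h3 h4
  set X1 := fC x1
  set X2 := fC x2
  set Y := fC y
  have e1 : X1 * Y = -(Y * X1) := eq_neg_of_add_eq_zero_left h1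
  have e2 : X2 * Y = -(Y * X2) := eq_neg_of_add_eq_zero_left h2'
  have hUY : X1 * X2 * Y = Y * (X1 * X2) := by
    rw [mul_assoc, e2, mul_neg, ← mul_assoc, e1, neg_mul, neg_neg, mul_assoc]
  rw [← hUY] at h3
  have hUU : X1 * X2 * (X1 * X2) = X1 * X2 := by
    have : (2 : T) • (X1 * X2 * (X1 * X2) - X1 * X2) = 0 := by
      rw [two_smul]
      linear_combination (norm := module) h4
    have h := (h2.smul_eq_zero).mp this
    exact sub_eq_zero.mp h
  have h5 : X1 * X2 * Y = Y := by
    calc X1 * X2 * Y = X1 * X2 * (X1 * X2 * Y + X1 * X2 * Y) := by rw [h3]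
      _ = (X1 * X2 * (X1 * X2)) * Y + (X1 * X2 * (X1 * X2)) * Y := by
          rw [mul_add, ← mul_assoc (X1 * X2) (X1 * X2) Y]
      _ = Y := by rw [hUU, h3]
  rw [h5] at h3
  simpa using h3

end Abstract

/-- Matrix-unit computations needed for the kernel argument: in a free module of rank two
there are endomorphisms `e₁`, `e₂` with `tr e₁ = tr e₂ = 0`, `tr (e₁ e₂) = 1`,
`tr ((e₁ e₂)(e₁ e₂)) = 1`. -/
theorem exists_matrix_units {T : Type*} [CommRing T] {V : Type*} [AddCommGroup V] [Module T V]
    [Module.Free T V] [Module.Finite T V] (hrank : Module.finrank T V = 2) :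
    ∃ e₁ e₂ : Module.End T V, LinearMap.trace T V e₁ = 0 ∧ LinearMap.trace T V e₂ = 0 ∧
      LinearMap.trace T V (e₁ * e₂) = 1 ∧ LinearMap.trace T V ((e₁ * e₂) * (e₁ * e₂)) = 1 := by
  classical
  rcases subsingleton_or_nontrivial T with hT | hT
  · exact ⟨0, 0, Subsingleton.elim _ _, Subsingleton.elim _ _, Subsingleton.elim _ _,
      Subsingleton.elim _ _⟩
  let b : Module.Basis (Fin 2) T V := Module.finBasisOfFinrankEq T V hrank
  refine ⟨Matrix.toLin b b (Matrix.single 0 1 1), Matrix.toLin b b (Matrix.single 1 0 1),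
    ?_, ?_, ?_, ?_⟩
  · rw [LinearMap.trace_eq_matrix_trace T b, LinearMap.toMatrix_toLin]
    simp
  · rw [LinearMap.trace_eq_matrix_trace T b, LinearMap.toMatrix_toLin]
    simp
  · rw [Module.End.mul_eq_comp, ← Matrix.toLin_mul, LinearMap.trace_eq_matrix_trace T b,
      LinearMap.toMatrix_toLin]
    simp
  · rw [Module.End.mul_eq_comp, Module.End.mul_eq_comp, ← Matrix.toLin_mul, ← Matrix.toLin_mul,
      LinearMap.trace_eq_matrix_trace T b, LinearMap.toMatrix_toLin]
    simp

/-- **Boston-Lenstra-Ribet / Carayol**, general universes. -/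
theorem blr_general {T : Type*} [CommRing T] {G : Type*} [Group G]
    {V : Type*} [AddCommGroup V] [Module T V] [Module.Free T V] [Module.Finite T V]
    (hrank : Module.finrank T V = 2) (h2 : IsUnit (2 : T))
    (ρ : G →* Module.End T V) (hspan : Submodule.span T (Set.range ρ) = ⊤)
    {W : Type*} [AddCommGroup W] [Module T W] (τ : G →* Module.End T W)
    (hτ : ∀ g : G, τ g * τ g - LinearMap.trace T V (ρ g) • τ g
        + LinearMap.det (ρ g) • (1 : Module.End T W) = 0) :
    ∃ Φ : Module.End T V →ₐ[T] Module.End T W, ∀ g, Φ (ρ g) = τ g := by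
  classical
  set fA : MonoidAlgebra T G →ₐ[T] Module.End T V := MonoidAlgebra.lift T _ G ρ with hfA
  set fC : MonoidAlgebra T G →ₐ[T] Module.End T W := MonoidAlgebra.lift T _ G τ with hfC
  let t : MonoidAlgebra T G →ₗ[T] T := (LinearMap.trace T V).comp fA.toLinearMap
  have ht : ∀ u, t u = LinearMap.trace T V (fA u) := fun u => rfl
  -- surjectivity of `fA`
  have hsurj : Function.Surjective fA := by
    have hr : LinearMap.range fA.toLinearMap = ⊤ := by
      rw [eq_top_iff, ← hspan, Submodule.span_le]
      rintro _ ⟨g, rfl⟩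
      exact ⟨MonoidAlgebra.of T G g, MonoidAlgebra.lift_of ρ g⟩
    intro a
    have : a ∈ LinearMap.range fA.toLinearMap := by rw [hr]; trivial
    exact this
  -- the polarised identity
  have hI : ∀ u v : MonoidAlgebra T G, fC (u * v) + fC (v * u)
      = t u • fC v + t v • fC u - (t u * t v) • (1 : Module.End T W)
        + t (u * v) • (1 : Module.End T W) := by
    refine polarised_monoidAlgebra τ t (fun g => LinearMap.det (ρ g)) ?_ ?_
    · intro g h
      simp only [map_mul]
    · intro g
      have : t (MonoidAlgebra.of T G g) = LinearMap.trace T V (ρ g) := by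
        rw [ht, hfA, MonoidAlgebra.lift_of]
      rw [this]
      exact hτ g
  -- the kernel inclusion
  obtain ⟨e₁, e₂, he₁, he₂, he₁₂, he₁₂'⟩ := exists_matrix_units (T := T) (V := V) hrank
  obtain ⟨x1, hx1⟩ := hsurj e₁
  obtain ⟨x2, hx2⟩ := hsurj e₂
  have hker : ∀ y, fA y = 0 → fC y = 0 := by
    intro y hy
    refine map_eq_zero_of_polarised fC t h2 hI (x1 := x1) (x2 := x2) ?_ ?_ ?_ ?_ ?_ ?_ ?_ ?_
    · rw [ht, hx1, he₁]
    · rw [ht, hx2, he₂]
    · rw [ht, map_mul fA, hx1, hx2, he₁₂]
    · rw [ht, map_mul fA, map_mul fA, hx1, hx2, he₁₂']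
    · rw [ht, hy, map_zero]
    · rw [ht, map_mul fA, hy, mul_zero, map_zero]
    · rw [ht, map_mul fA, hy, mul_zero, map_zero]
    · rw [ht, map_mul fA, hy, mul_zero, map_zero]
  -- the induced map
  have hk : RingHom.ker (fA : MonoidAlgebra T G →+* Module.End T V)
      ≤ RingHom.ker (fC : MonoidAlgebra T G →+* Module.End T W) := by
    intro y hy
    rw [RingHom.mem_ker] at hy ⊢
    exact hker y hy
  let φ : Module.End T V →+* Module.End T W :=
    RingHom.liftOfSurjective (fA : MonoidAlgebra T G →+* Module.End T V) hsurj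
      ⟨(fC : MonoidAlgebra T G →+* Module.End T W), hk⟩
  have hφ : ∀ x, φ (fA x) = fC x := fun x =>
    RingHom.liftOfSurjective_comp_apply (fA : MonoidAlgebra T G →+* Module.End T V) hsurj
      ⟨(fC : MonoidAlgebra T G →+* Module.End T W), hk⟩ x
  refine ⟨{ φ with commutes' := ?_ }, ?_⟩
  · intro r
    have := hφ (algebraMap T (MonoidAlgebra T G) r)
    rw [AlgHom.commutes, AlgHom.commutes] at this
    exact this
  · intro g
    have := hφ (MonoidAlgebra.of T G g)
    rw [hfA, hfC, MonoidAlgebra.lift_of, MonoidAlgebra.lift_of] at this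
    exact this

/-- **FF-F1**: the Boston-Lenstra-Ribet statement of P-FF. -/
theorem blr : Fermat.Agent.H72.FF.BLRStatement := by
  intro T _ G _ V _ _ _ _ hrank h2 ρ hspan W _ _ τ hτ
  exact blr_general hrank h2 ρ hspan τ hτ

end Fermat.Agent.H67.BLR
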