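import Mathlib
import Fermat.Agent.H15.LatticeCount
import Fermat.Agent.H68.LatticeCountRate

/-!
# P-CHEB phase 2, CH2-COUNT, part (A): lattice points of a coset in a dilated domain

For a `ℤ`-lattice `L` in a finite dimensional real normed space `E`, a bounded set `D` whose
frontier is thin of exponent `d - 1` (`d = dim E`) and a vector `v`:
`#{x ∈ t • D : x - v ∈ L} = κ t ^ d + O(t ^ (d - 1))` for `t ≥ 1`.
-/

set_option autoImplicit false

namespace Fermat.Agent.H67.Ch2

open MeasureTheory Metric Set Module Fermat.Agent.H68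
open scoped Pointwise

section Coset

variable {E : Type*} [NormedAddCommGroup E] [NormedSpace ℝ E] [FiniteDimensional ℝ E]
  [MeasurableSpace E] [BorelSpace E]

/-- The thickened translate of a dilated thin set has volume `O(t ^ e)`. -/
theorem measureReal_cthickening_le (μ : Measure E) [μ.IsAddHaarMeasure] {S : Set E} {e : ℕ}
    (hS : IsThin e S) {R : ℝ} (hR : 0 ≤ R) (v : E) :
    ∃ B : ℝ, 0 ≤ B ∧ ∀ t : ℝ, 1 ≤ t →
      μ.real (cthickening R ((fun x : E => x + v) ⁻¹' (t • S))) ≤ B * t ^ e := by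
  classical
  obtain ⟨B₀, hB₀⟩ := hS
  set V : ℝ := μ.real (closedBall (0 : E) (R + 2)) with hV
  refine ⟨B₀ * 2 ^ e * V, by positivity, fun t ht => ?_⟩
  have ht0 : 0 < t := zero_lt_one.trans_le ht
  set M : ℕ := ⌈t⌉₊ with hM
  have hM0 : 0 < M := Nat.ceil_pos.2 ht0
  have htM : t ≤ M := Nat.le_ceil t
  have hMt : (M : ℝ) ≤ 2 * t := by
    have := Nat.ceil_lt_add_one ht0.le
    linarith
  obtain ⟨F, -, hcard, hcov⟩ := hB₀ M hM0
  have hM' : (0 : ℝ) < M := by exact_mod_cast hM0
  have hsub : cthickening R ((fun x : E => x + v) ⁻¹' (t • S)) ⊆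
      ⋃ c ∈ F, closedBall (t • c - v) (R + 2) := by
    intro y hy
    have hy' := cthickening_subset_thickening' (by linarith : (0 : ℝ) < R + 1)
      (by linarith : R < R + 1) _ hy
    rw [mem_thickening_iff] at hy'
    obtain ⟨z, hz, hyz⟩ := hy'
    obtain ⟨x, hxS, hxz⟩ := hz
    obtain ⟨c, hcF, hxc⟩ : ∃ c ∈ F, x ∈ closedBall c (1 / (M : ℝ)) := by
      simpa only [mem_iUnion, exists_prop] using hcov hxS
    simp only [mem_iUnion, exists_prop]
    refine ⟨c, hcF, ?_⟩
    rw [mem_closedBall] at hxc ⊢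
    have hz' : z = t • x - v := by
      have : t • x = z + v := hxz
      rw [this]; abel
    have h1 : dist z (t • c - v) ≤ 1 := by
      rw [hz', dist_eq_norm]
      have : t • x - v - (t • c - v) = t • (x - c) := by rw [smul_sub]; abel
      rw [this, norm_smul, Real.norm_of_nonneg ht0.le, ← dist_eq_norm]
      calc t * dist x c ≤ t * (1 / (M : ℝ)) := mul_le_mul_of_nonneg_left hxc ht0.le
        _ ≤ 1 := by rw [mul_one_div, div_le_one hM']; exact htM
    calc dist y (t • c - v) ≤ dist y z + dist z (t • c - v) := dist_triangle _ _ _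
      _ ≤ (R + 1) + 1 := add_le_add hyz.le h1
      _ = R + 2 := by ring
  have hfin : μ (⋃ c ∈ F, closedBall (t • c - v) (R + 2)) ≠ ⊤ := by
    refine ((measure_biUnion_finset_le F _).trans_lt ?_).ne
    refine ENNReal.sum_lt_top.2 fun c _ => ?_
    exact measure_closedBall_lt_top
  calc μ.real (cthickening R ((fun x : E => x + v) ⁻¹' (t • S)))
      ≤ μ.real (⋃ c ∈ F, closedBall (t • c - v) (R + 2)) := measureReal_mono hsub hfin
    _ ≤ ∑ c ∈ F, μ.real (closedBall (t • c - v) (R + 2)) := measureReal_biUnion_finset_le _ _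
    _ = ∑ _c ∈ F, V := by
        refine Finset.sum_congr rfl fun c _ => ?_
        rw [hV, measureReal_def, measureReal_def, Measure.addHaar_closedBall_center]
    _ = F.card * V := by rw [Finset.sum_const, nsmul_eq_mul]
    _ ≤ (B₀ * M ^ e : ℕ) * V := by
        refine mul_le_mul_of_nonneg_right ?_ measureReal_nonneg
        exact_mod_cast hcard
    _ = B₀ * (M : ℝ) ^ e * V := by push_cast; ring
    _ ≤ B₀ * (2 * t) ^ e * V := by gcongr
    _ = B₀ * 2 ^ e * V * t ^ e := by rw [mul_pow]; ring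

variable (L : Submodule ℤ E) [DiscreteTopology L] [IsZLattice ℝ L]

/-- **Coset count with rate**: `#{x ∈ t • D : x - v ∈ L} = κ t ^ d + O(t ^ (d - 1))`. -/
theorem cosetCount_rate (μ : Measure E) [μ.IsAddHaarMeasure] {D : Set E}
    (hD : Bornology.IsBounded D) (hthin : IsThin (finrank ℝ E - 1) (frontier D)) (v : E) :
    ∃ κ B : ℝ, 0 ≤ B ∧ ∀ t : ℝ, 1 ≤ t →
      |(Nat.card {x : E // x ∈ t • D ∧ x - v ∈ L} : ℝ) - κ * t ^ finrank ℝ E| ≤
        B * t ^ (finrank ℝ E - 1) := by
  classical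
  have : Module.Finite ℤ L := ZLattice.module_finite ℝ L
  have : Module.Free ℤ L := ZLattice.module_free ℝ L
  set b₀ := Module.Free.chooseBasis ℤ L with hb₀
  set b := b₀.ofZLatticeBasis ℝ L with hb
  have hspan : (Submodule.span ℤ (Set.range b) : Set E) = (L : Set E) := by
    rw [hb, b₀.ofZLatticeBasis_span ℝ L]
  set R : ℝ := ∑ i, ‖b i‖ with hR
  have hR0 : 0 ≤ R := Finset.sum_nonneg fun _ _ => norm_nonneg _
  obtain ⟨B, hB0, hB⟩ := measureReal_cthickening_le μ hthin hR0 v
  set c₀ : ℝ := μ.real (ZSpan.fundamentalDomain b) with hc₀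
  have hc₀pos : 0 < c₀ := by
    rw [hc₀, measureReal_def]
    refine ENNReal.toReal_pos (ZSpan.measure_fundamentalDomain_ne_zero b) ?_
    exact (ZSpan.fundamentalDomain_isBounded b).measure_lt_top.ne
  refine ⟨μ.real D / c₀, B / c₀, by positivity, fun t ht => ?_⟩
  have ht0 : 0 < t := zero_lt_one.trans_le ht
  set X : Set E := (fun x : E => x + v) ⁻¹' (t • D) with hX
  have hXb : Bornology.IsBounded X := by
    have : X = (fun x : E => x + (-v)) '' (t • D) := by
      ext y
      simp only [hX, mem_preimage, mem_image]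
      constructor
      · intro h; exact ⟨y + v, h, by abel⟩
      · rintro ⟨x, hx, rfl⟩
        have : x + -v + v = x := by abel
        rwa [this]
    rw [this]
    exact (LipschitzWith.id.add (LipschitzWith.const (-v))).isBounded_image (hD.smul₀ t)
  have hcount : Nat.card {x : E // x ∈ t • D ∧ x - v ∈ L} =
      Nat.card (X ∩ (Submodule.span ℤ (Set.range b) : Set E) : Set E) := by
    refine Nat.card_congr ?_
    refine Equiv.ofBijective (fun x => ⟨x.1 - v, ?_, ?_⟩) ⟨?_, ?_⟩
    · show x.1 - v + v ∈ t • D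
      rw [sub_add_cancel]; exact x.2.1
    · rw [hspan]; exact x.2.2
    · intro x y h
      have := congrArg Subtype.val h
      simp only at this
      exact Subtype.ext (sub_left_injective this)
    · rintro ⟨y, hyX, hyL⟩
      refine ⟨⟨y + v, hyX, ?_⟩, ?_⟩
      · rw [add_sub_cancel_right]
        rw [hspan] at hyL; exact hyL
      · exact Subtype.ext (add_sub_cancel_right y v)
  have hmeas : μ.real X = t ^ finrank ℝ E * μ.real D := by
    rw [hX, measureReal_def, measure_preimage_add_right, Measure.addHaar_smul,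
      ENNReal.toReal_mul, ENNReal.toReal_ofReal (abs_nonneg _),
      abs_of_nonneg (pow_nonneg ht0.le _), measureReal_def]
  have hfront : frontier X = (fun x : E => x + v) ⁻¹' (t • frontier D) := by
    rw [hX, ← frontier_smul_set ht0.ne']
    exact ((Homeomorph.addRight v).preimage_frontier (t • D)).symm
  have hmain := Fermat.Agent.H15.abs_card_mul_measureReal_sub_le b μ hXb
  rw [← hcount, hmeas, hfront] at hmain
  have hle := hmain.trans (hB t ht)
  set N : ℝ := (Nat.card {x : E // x ∈ t • D ∧ x - v ∈ L} : ℝ) with hN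
  have hkey : N - μ.real D / c₀ * t ^ finrank ℝ E =
      (N * c₀ - t ^ finrank ℝ E * μ.real D) / c₀ := by
    field_simp
  rw [hkey, abs_div, abs_of_pos hc₀pos, div_le_iff₀ hc₀pos]
  calc |N * c₀ - t ^ finrank ℝ E * μ.real D| ≤ B * t ^ (finrank ℝ E - 1) := hle
    _ = B / c₀ * t ^ (finrank ℝ E - 1) * c₀ := by field_simp

/-- **Coset count with rate, cone form**: for a cone `X` and a function `F` homogeneous of degree
`d = dim E`, `#{x ∈ X : F x ≤ c, x - v ∈ L} = κ c + O(c ^ (1 - 1/d))`. -/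
theorem cosetConeCount_rate (μ : Measure E) [μ.IsAddHaarMeasure] {X : Set E} {F : E → ℝ}
    (hX : ∀ ⦃x⦄ ⦃r : ℝ⦄, x ∈ X → 0 < r → r • x ∈ X)
    (hF : ∀ x ⦃r : ℝ⦄, 0 ≤ r → F (r • x) = r ^ finrank ℝ E * F x)
    (hb : Bornology.IsBounded {x | x ∈ X ∧ F x ≤ 1})
    (hthin : IsThin (finrank ℝ E - 1) (frontier {x | x ∈ X ∧ F x ≤ 1}))
    (hd : 0 < finrank ℝ E) (v : E) :
    ∃ κ B : ℝ, 0 ≤ B ∧ ∀ c : ℝ, 1 ≤ c →
      |(Nat.card {x : E // (x ∈ X ∧ F x ≤ c) ∧ x - v ∈ L} : ℝ) - κ * c| ≤
        B * c ^ (1 - 1 / (finrank ℝ E : ℝ)) := by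
  obtain ⟨κ, B, hB0, hB⟩ := cosetCount_rate L μ hb hthin v
  refine ⟨κ, B, hB0, fun c hc => ?_⟩
  set d := finrank ℝ E with hdd
  have hc0 : 0 < c := zero_lt_one.trans_le hc
  set r : ℝ := c ^ ((d : ℝ)⁻¹) with hr
  have hr1 : 1 ≤ r := Real.one_le_rpow hc (by positivity)
  have hr0 : 0 < r := zero_lt_one.trans_le hr1
  have hrd : r ^ d = c := Real.rpow_inv_natCast_pow hc0.le hd.ne'
  have hrd1 : r ^ (d - 1) = c ^ (1 - 1 / (d : ℝ)) := by
    rw [hr, ← Real.rpow_natCast, ← Real.rpow_mul hc0.le]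
    congr 1
    rw [Nat.cast_sub hd]
    have : (d : ℝ) ≠ 0 := by exact_mod_cast hd.ne'
    field_simp
    simp
  have hset : {x | x ∈ X ∧ F x ≤ c} = r • {x | x ∈ X ∧ F x ≤ 1} := by
    rw [← hrd]
    exact setOf_le_eq_smul hX hF hr0
  have h := hB r hr1
  rw [hrd, hrd1, ← hset] at h
  exact h

end Coset

end Fermat.Agent.H67.Ch2
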