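import Mathlib
import Fermat.Agent.H62.Cheb2.Interfaces

/-!
# P-CHEB phase 2, CH2-COUNT, part (C1): from ideals to integral points of the fundamental cone

For `k ≠ 0`, `idealCount K k * torsionOrder K = ∑_C #{ξ ∈ J_C ∩ cone : |N ξ| = k * N(J_C)}`
where `J_C` is any integral ideal in the class `C⁻¹`.
-/

set_option autoImplicit false

namespace Fermat.Agent.H67.Ch2

open NumberField NumberField.mixedEmbedding NumberField.InfinitePlace Module Ideal Submodule
  NumberField.mixedEmbedding.fundamentalCone NumberField.Units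
open scoped nonZeroDivisors Classical

variable {K : Type*} [Field K] [NumberField K]

/-- absolute value of the norm of an algebraic integer -/
noncomputable def absN (ξ : 𝓞 K) : ℕ := (Algebra.norm ℤ ξ).natAbs

/-- the elements of the ideal `J` whose image lies in the fundamental cone -/
def coneElts (J : Ideal (𝓞 K)) : Set (𝓞 K) :=
  {ξ | ξ ∈ J ∧ mixedEmbedding K (ξ : K) ∈ fundamentalCone K}

theorem norm_mixedEmbedding_eq (ξ : 𝓞 K) :
    mixedEmbedding.norm (mixedEmbedding K (ξ : K)) = (absN ξ : ℝ) := by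
  rw [absN, Nat.cast_natAbs, ← Rat.cast_intCast, Int.cast_abs, Algebra.coe_norm_int,
    ← norm_eq_norm]

theorem mixedEmbedding_coe_injective :
    Function.Injective (fun ξ : 𝓞 K => mixedEmbedding K (ξ : K)) :=
  (mixedEmbedding_injective K).comp RingOfIntegers.coe_injective

theorem absN_ne_zero_of_mem_coneElts {J : Ideal (𝓞 K)} {ξ : 𝓞 K} (h : ξ ∈ coneElts J) :
    absN ξ ≠ 0 := by
  intro h0
  have := norm_pos_of_mem h.2
  rw [norm_mixedEmbedding_eq, h0] at this
  simp at this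

theorem absNorm_dvd_absN {J : Ideal (𝓞 K)} {ξ : 𝓞 K} (h : ξ ∈ J) : absNorm J ∣ absN ξ := by
  rw [absN, ← absNorm_span_singleton]
  exact absNorm_dvd_absNorm_of_le ((span_singleton_le_iff_mem J).mpr h)

/-- points of `idealSet K J` of norm `j` are the elements of `coneElts J` of norm `j` -/
noncomputable def idealSetNormEquiv (J : (Ideal (𝓞 K))⁰) (j : ℕ) :
    {ξ : 𝓞 K // ξ ∈ coneElts (J : Ideal (𝓞 K)) ∧ absN ξ = j} ≃
      {a : idealSet K J // mixedEmbedding.norm (a : mixedSpace K) = j} :=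
  Equiv.ofBijective
    (fun ξ => ⟨⟨mixedEmbedding K (ξ.1 : K), mem_idealSet.mpr ⟨ξ.2.1.2, ξ.1, ξ.2.1.1, rfl⟩⟩, by
      show mixedEmbedding.norm (mixedEmbedding K (ξ.1 : K)) = j
      rw [norm_mixedEmbedding_eq, ξ.2.2]⟩)
    ⟨fun ξ η h => by
        have h' := congrArg (fun a : {a : idealSet K J //
          mixedEmbedding.norm (a : mixedSpace K) = j} => ((a : idealSet K J) : mixedSpace K)) h
        exact Subtype.ext (mixedEmbedding_coe_injective h'),
     fun a => by
        obtain ⟨hc, ξ, hξJ, hξ⟩ := mem_idealSet.mp a.1.2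
        refine ⟨⟨ξ, ⟨hξJ, by rw [hξ]; exact hc⟩, ?_⟩, ?_⟩
        · have := a.2
          rw [← hξ, norm_mixedEmbedding_eq] at this
          exact_mod_cast this
        · exact Subtype.ext (Subtype.ext hξ)⟩

/-- principal multiples of `J` of norm `j`, counted with the torsion, are the elements of
`coneElts J` of norm `j` -/
theorem card_principal_mul_torsionOrder (J : (Ideal (𝓞 K))⁰) (j : ℕ) :
    Nat.card {I : (Ideal (𝓞 K))⁰ // (J : Ideal (𝓞 K)) ∣ I ∧ IsPrincipal (I : Ideal (𝓞 K)) ∧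
      absNorm (I : Ideal (𝓞 K)) = j} * torsionOrder K =
      Nat.card {ξ : 𝓞 K // ξ ∈ coneElts (J : Ideal (𝓞 K)) ∧ absN ξ = j} := by
  rw [torsionOrder, ← Nat.card_prod]
  exact Nat.card_congr ((idealSetEquivNorm K J j).symm.trans (idealSetNormEquiv J j).symm)

/-- ideals of norm `k` in the class `C` correspond to principal multiples of `J` of norm
`k * N(J)` when `[J] = C⁻¹` -/
theorem card_class_eq_card_dvd {C : ClassGroup (𝓞 K)} {J : (Ideal (𝓞 K))⁰}
    (hJ : ClassGroup.mk0 J = C⁻¹) (k : ℕ) :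
    Nat.card {I : (Ideal (𝓞 K))⁰ // absNorm (I : Ideal (𝓞 K)) = k ∧ ClassGroup.mk0 I = C}
      = Nat.card {I : (Ideal (𝓞 K))⁰ // (J : Ideal (𝓞 K)) ∣ I ∧ IsPrincipal (I : Ideal (𝓞 K)) ∧
        absNorm (I : Ideal (𝓞 K)) = k * absNorm (J : Ideal (𝓞 K))} := by
  simp_rw [← nonZeroDivisors_dvd_iff_dvd_coe]
  refine Nat.card_congr ?_
  refine ((Equiv.dvd J).subtypeEquiv fun I ↦ ?_).trans
    (Equiv.subtypeSubtypeEquivSubtypeInter (fun I : (Ideal (𝓞 K))⁰ ↦ J ∣ I) _)
  rw [← ClassGroup.mk0_eq_one_iff (SetLike.coe_mem _)]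
  simp_rw [Equiv.dvd_apply, Submonoid.coe_mul, ← Submonoid.mul_def, _root_.map_mul, hJ,
    inv_mul_eq_one, mul_comm k, eq_comm, and_comm, and_congr_left_iff]
  intro _
  have hpos : 0 < absNorm (J : Ideal (𝓞 K)) :=
    Nat.pos_of_ne_zero (absNorm_ne_zero_of_nonZeroDivisors J)
  constructor
  · intro h; rw [h]
  · intro h; exact Nat.eq_of_mul_eq_mul_left hpos h

theorem finite_ideal_absNorm_eq (k : ℕ) :
    Finite {I : (Ideal (𝓞 K))⁰ // absNorm (I : Ideal (𝓞 K)) = k} := by
  have h := Ideal.finite_setOfPred_absNorm_eq (S := 𝓞 K) k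
  have : Finite {I : Ideal (𝓞 K) // absNorm I = k} := h
  exact Finite.of_injective
    (fun I : {I : (Ideal (𝓞 K))⁰ // absNorm (I : Ideal (𝓞 K)) = k} =>
      (⟨I.1.1, I.2⟩ : {I : Ideal (𝓞 K) // absNorm I = k}))
    (fun I I' h => by
      have := congrArg Subtype.val h
      exact Subtype.ext (Subtype.ext this))

/-- partition of the ideals of norm `k ≠ 0` into ideal classes -/
theorem idealCount_eq_sum_class {k : ℕ} (hk : k ≠ 0) :
    Nat.card {I : Ideal (𝓞 K) // absNorm I = k} =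
      ∑ C : ClassGroup (𝓞 K),
        Nat.card {I : (Ideal (𝓞 K))⁰ // absNorm (I : Ideal (𝓞 K)) = k ∧ ClassGroup.mk0 I = C} := by
  have hfin := finite_ideal_absNorm_eq (K := K) k
  have e1 : {I : Ideal (𝓞 K) // absNorm I = k} ≃
      {I : (Ideal (𝓞 K))⁰ // absNorm (I : Ideal (𝓞 K)) = k} :=
    { toFun := fun I => ⟨⟨I.1, by
        rw [mem_nonZeroDivisors_iff_ne_zero]
        rintro h0
        have := I.2
        rw [h0] at this
        simp at this
        exact hk this.symm⟩, I.2⟩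
      invFun := fun I => ⟨I.1.1, I.2⟩
      left_inv := fun I => rfl
      right_inv := fun I => rfl }
  rw [Nat.card_congr e1,
    ← Nat.card_congr (Equiv.sigmaFiberEquiv
      (fun I : {I : (Ideal (𝓞 K))⁰ // absNorm (I : Ideal (𝓞 K)) = k} => ClassGroup.mk0 I.1)),
    Nat.card_sigma]
  refine Finset.sum_congr rfl fun C _ => ?_
  exact Nat.card_congr (Equiv.subtypeSubtypeEquivSubtypeInter
    (fun I : (Ideal (𝓞 K))⁰ => absNorm (I : Ideal (𝓞 K)) = k) (fun I => ClassGroup.mk0 I = C))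

/-- **From ideals to cone points.**  For `k ≠ 0` and any choice of integral ideals `J C` in the
classes `C⁻¹`. -/
theorem idealCount_mul_torsionOrder (J : ClassGroup (𝓞 K) → (Ideal (𝓞 K))⁰)
    (hJ : ∀ C, ClassGroup.mk0 (J C) = C⁻¹) {k : ℕ} (hk : k ≠ 0) :
    Nat.card {I : Ideal (𝓞 K) // absNorm I = k} * torsionOrder K =
      ∑ C : ClassGroup (𝓞 K),
        Nat.card {ξ : 𝓞 K // ξ ∈ coneElts (J C : Ideal (𝓞 K)) ∧
          absN ξ = k * absNorm (J C : Ideal (𝓞 K))} := by
  rw [idealCount_eq_sum_class hk, Finset.sum_mul]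
  refine Finset.sum_congr rfl fun C _ => ?_
  rw [card_class_eq_card_dvd (hJ C) k, card_principal_mul_torsionOrder]

end Fermat.Agent.H67.Ch2
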