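import Mathlib
import Fermat.Agent.H68.NormLeOneThin

/-!
# P-CHEB phase 2, CH2-COUNT, part (B): the norm modulo `M` and its sign

* `dvd_norm_sub_norm`: `M ∣ a - b` implies `M ∣ N a - N b` (finite free algebras).
* `sNorm K`: the signed norm `Algebra.norm ℝ` on the mixed space; it is continuous, extends the
  norm of `𝓞 K`, and does not vanish on the fundamental cone.
* the two halves `normLeOne K ∩ {± sNorm > 0}` have thin frontier.
-/

set_option autoImplicit false

namespace Fermat.Agent.H67.Ch2

open NumberField NumberField.mixedEmbedding NumberField.InfinitePlace Module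
  NumberField.mixedEmbedding.fundamentalCone Fermat.Agent.H68
open scoped Classical

section General

variable {R S : Type*} [CommRing R] [CommRing S] [Algebra R S] [Module.Free R S]
  [Module.Finite R S]

/-- The norm is compatible with congruences. -/
theorem dvd_norm_sub_norm {M : R} {a b : S} (h : algebraMap R S M ∣ a - b) :
    M ∣ Algebra.norm R a - Algebra.norm R b := by
  classical
  obtain ⟨c, hc⟩ := h
  let bs := Module.Free.chooseBasis R S
  rw [Algebra.norm_eq_matrix_det bs, Algebra.norm_eq_matrix_det bs]
  have hab : a = b + algebraMap R S M * c := by rw [← hc]; ring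
  have hA : Algebra.leftMulMatrix bs a =
      Algebra.leftMulMatrix bs b + M • Algebra.leftMulMatrix bs c := by
    rw [hab, map_add, map_mul, AlgHom.commutes, Algebra.algebraMap_eq_smul_one, smul_mul_assoc,
      one_mul]
  let φ := Ideal.Quotient.mk (Ideal.span {M})
  have hφ : φ.mapMatrix (Algebra.leftMulMatrix bs a) =
      φ.mapMatrix (Algebra.leftMulMatrix bs b) := by
    rw [hA, map_add]
    have : φ.mapMatrix (M • Algebra.leftMulMatrix bs c) = 0 := by
      ext i j
      simp only [RingHom.mapMatrix_apply, Matrix.map_apply, Matrix.smul_apply, smul_eq_mul,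
        Matrix.zero_apply, φ]
      rw [Ideal.Quotient.eq_zero_iff_mem, Ideal.mem_span_singleton]
      exact dvd_mul_right _ _
    rw [this, add_zero]
  have hdet : φ (Algebra.leftMulMatrix bs a).det = φ (Algebra.leftMulMatrix bs b).det := by
    rw [RingHom.map_det, RingHom.map_det, hφ]
  rw [← Ideal.mem_span_singleton, ← Ideal.Quotient.eq]
  exact hdet

end General

section Sign

variable (K : Type*) [Field K] [NumberField K]

/-- The signed norm on the mixed space. -/
noncomputable def sNorm (x : mixedSpace K) : ℝ := Algebra.norm ℝ x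

theorem continuous_sNorm : Continuous (sNorm K) := by
  classical
  have h : sNorm K = fun x => (Algebra.leftMulMatrix (latticeBasis K) x).det := by
    funext x; exact Algebra.norm_eq_matrix_det (latticeBasis K) x
  rw [h]
  refine Continuous.matrix_det ?_
  exact (Algebra.leftMulMatrix (latticeBasis K)).toLinearMap.continuous_of_finiteDimensional

variable {K}

theorem sNorm_mixedEmbedding (ξ : 𝓞 K) :
    sNorm K (mixedEmbedding K (ξ : K)) = ((Algebra.norm ℤ ξ : ℤ) : ℝ) := by
  classical
  unfold sNorm
  rw [Algebra.norm_eq_matrix_det (latticeBasis K),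
    Algebra.norm_eq_matrix_det (RingOfIntegers.basis K)]
  have : ((Algebra.leftMulMatrix (RingOfIntegers.basis K) ξ).det : ℝ) =
      ((Int.castRingHom ℝ).mapMatrix (Algebra.leftMulMatrix (RingOfIntegers.basis K) ξ)).det := by
    rw [← RingHom.map_det]; rfl
  rw [this]
  congr 1
  ext i j
  rw [Algebra.leftMulMatrix_eq_repr_mul, RingHom.mapMatrix_apply, Matrix.map_apply,
    Algebra.leftMulMatrix_eq_repr_mul, latticeBasis_apply, integralBasis_apply, ← map_mul,
    ← map_mul, latticeBasis_repr_apply, integralBasis_repr_apply]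
  simp

theorem sNorm_smul (r : ℝ) (x : mixedSpace K) :
    sNorm K (r • x) = r ^ finrank ℚ K * sNorm K x := by
  unfold sNorm
  rw [Algebra.smul_def, map_mul, Algebra.norm_algebraMap, mixedEmbedding.finrank]

theorem sNorm_ne_zero {x : mixedSpace K} (hx : mixedEmbedding.norm x ≠ 0) : sNorm K x ≠ 0 := by
  have hall := mixedEmbedding.norm_ne_zero_iff.mp hx
  have hu : IsUnit x := by
    rw [Prod.isUnit_iff, Pi.isUnit_iff, Pi.isUnit_iff]
    refine ⟨fun w => ?_, fun w => ?_⟩
    · rw [isUnit_iff_ne_zero]
      have := hall w.1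
      rw [normAtPlace_apply_of_isReal w.2] at this
      exact norm_ne_zero_iff.mp this
    · rw [isUnit_iff_ne_zero]
      have := hall w.1
      rw [normAtPlace_apply_of_isComplex w.2] at this
      exact norm_ne_zero_iff.mp this
  exact (hu.map (Algebra.norm ℝ)).ne_zero

theorem sNorm_ne_zero_of_mem {x : mixedSpace K} (hx : x ∈ fundamentalCone K) :
    sNorm K x ≠ 0 :=
  sNorm_ne_zero (norm_pos_of_mem hx).ne'

variable (K)

/-- The open set where the signed norm has sign `ε` (`true` = positive). -/
def signSet (ε : Bool) : Set (mixedSpace K) :=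
  if ε then {x | 0 < sNorm K x} else {x | sNorm K x < 0}

/-- The part of the fundamental cone where the signed norm has sign `ε`. -/
def coneSign (ε : Bool) : Set (mixedSpace K) := fundamentalCone K ∩ signSet K ε

variable {K}

theorem mem_coneSign {ε : Bool} {x : mixedSpace K} :
    x ∈ coneSign K ε ↔ x ∈ fundamentalCone K ∧ (0 < sNorm K x ↔ ε = true) := by
  unfold coneSign signSet
  cases ε
  · simp only [Bool.false_eq_true, if_false, Set.mem_inter_iff, Set.mem_ofPred_eq, iff_false,
      not_lt, and_congr_right_iff]
    intro hx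
    exact ⟨le_of_lt, fun h => lt_of_le_of_ne h (sNorm_ne_zero_of_mem hx)⟩
  · simp

theorem smul_mem_coneSign {ε : Bool} {x : mixedSpace K} {r : ℝ} (hx : x ∈ coneSign K ε)
    (hr : 0 < r) : r • x ∈ coneSign K ε := by
  rw [mem_coneSign] at hx ⊢
  refine ⟨smul_mem_of_mem hx.1 hr.ne', ?_⟩
  rw [sNorm_smul, ← hx.2]
  constructor
  · intro h
    exact (pos_iff_pos_of_mul_pos h).mp (pow_pos hr _)
  · intro h
    exact mul_pos (pow_pos hr _) h

theorem frontier_signSet_subset (ε : Bool) :
    frontier (signSet K ε) ⊆ {x | sNorm K x = 0} := by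
  unfold signSet
  cases ε
  · simp only [Bool.false_eq_true, if_false]
    exact frontier_lt_subset_eq (continuous_sNorm K) continuous_const
  · simp only [if_true]
    intro x hx
    exact (frontier_lt_subset_eq continuous_const (continuous_sNorm K) hx).symm

theorem setOf_coneSign_eq (ε : Bool) :
    {x | x ∈ coneSign K ε ∧ mixedEmbedding.norm x ≤ 1} = normLeOne K ∩ signSet K ε := by
  ext x
  simp only [coneSign, normLeOne, Set.mem_ofPred_eq, Set.mem_inter_iff]
  tauto

/-- The frontier of each half of `normLeOne K` is thin. -/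
theorem isThin_frontier_coneSign (ε : Bool) :
    IsThin (finrank ℚ K - 1)
      (frontier {x | x ∈ coneSign K ε ∧ mixedEmbedding.norm x ≤ 1}) := by
  refine (isThin_frontier_normLeOne K).subset ?_
  rw [setOf_coneSign_eq]
  intro x hx
  rcases frontier_inter_subset _ _ hx with h | h
  · exact h.1
  · have h0 : sNorm K x = 0 := frontier_signSet_subset ε h.2
    have hx' : x ∉ normLeOne K := fun hmem => sNorm_ne_zero_of_mem hmem.1 h0
    rw [frontier, Set.mem_sdiff]
    exact ⟨h.1, fun hint => hx' (interior_subset hint)⟩

theorem isBounded_coneSign (ε : Bool) :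
    Bornology.IsBounded {x | x ∈ coneSign K ε ∧ mixedEmbedding.norm x ≤ 1} := by
  rw [setOf_coneSign_eq]
  exact (isBounded_normLeOne K).subset Set.inter_subset_left

end Sign

end Fermat.Agent.H67.Ch2
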