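import Mathlib
import Fermat.Agent.H67.Ch2Coset
import Fermat.Agent.H67.Ch2Norm
import Fermat.Agent.H67.Ch2Ideal

/-!
# P-CHEB phase 2, CH2-COUNT, part (C2): cone points in a residue class with a sign

For an integral ideal `J`, `M ≠ 0` and a class `θ = (ξ mod M J, sign of N ξ)`:
`#{ξ ∈ J ∩ cone : |N ξ| ≤ c, class θ} = κ c + O(c ^ (1 - 1/d))`.
-/

set_option autoImplicit false
set_option linter.unusedSectionVars false

namespace Fermat.Agent.H67.Ch2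

open NumberField NumberField.mixedEmbedding NumberField.InfinitePlace Module Ideal Submodule
  NumberField.mixedEmbedding.fundamentalCone NumberField.Units
open scoped nonZeroDivisors Classical

variable {K : Type*} [Field K] [NumberField K]

/-- the ideal `M J` -/
noncomputable def modIdeal (J : Ideal (𝓞 K)) (M : ℕ) : Ideal (𝓞 K) :=
  Ideal.span {(M : 𝓞 K)} * J

theorem modIdeal_le (J : Ideal (𝓞 K)) (M : ℕ) : modIdeal J M ≤ J := Ideal.mul_le_right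

theorem modIdeal_le_span (J : Ideal (𝓞 K)) (M : ℕ) : modIdeal J M ≤ Ideal.span {(M : 𝓞 K)} :=
  Ideal.mul_le_left

theorem modIdeal_mem_nonZeroDivisors (J : (Ideal (𝓞 K))⁰) {M : ℕ} (hM : M ≠ 0) :
    modIdeal (J : Ideal (𝓞 K)) M ∈ (Ideal (𝓞 K))⁰ := by
  refine mul_mem ?_ J.2
  rw [mem_nonZeroDivisors_iff_ne_zero, Ne, Ideal.zero_eq_bot, Ideal.span_singleton_eq_bot]
  exact_mod_cast hM

/-- class of an element: residue modulo `M J` and sign of the norm -/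
noncomputable def cls (J : Ideal (𝓞 K)) (M : ℕ) (ξ : 𝓞 K) : (𝓞 K ⧸ modIdeal J M) × Bool :=
  (Ideal.Quotient.mk _ ξ, decide (0 < Algebra.norm ℤ ξ))

theorem finite_coneElts_eq (J : (Ideal (𝓞 K))⁰) (j : ℕ) :
    {ξ : 𝓞 K | ξ ∈ coneElts (J : Ideal (𝓞 K)) ∧ absN ξ = j}.Finite := by
  have h1 : Finite {I : (Ideal (𝓞 K))⁰ // (J : Ideal (𝓞 K)) ∣ I ∧
      IsPrincipal (I : Ideal (𝓞 K)) ∧ absNorm (I : Ideal (𝓞 K)) = j} := by
    have := finite_ideal_absNorm_eq (K := K) j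
    exact Finite.of_injective
      (fun I : {I : (Ideal (𝓞 K))⁰ // (J : Ideal (𝓞 K)) ∣ I ∧
        IsPrincipal (I : Ideal (𝓞 K)) ∧ absNorm (I : Ideal (𝓞 K)) = j} =>
        (⟨I.1, I.2.2.2⟩ : {I : (Ideal (𝓞 K))⁰ // absNorm (I : Ideal (𝓞 K)) = j}))
      (fun I I' h => Subtype.ext (congrArg (fun z :
        {I : (Ideal (𝓞 K))⁰ // absNorm (I : Ideal (𝓞 K)) = j} => z.1) h))
  have h2 : Finite {ξ : 𝓞 K // ξ ∈ coneElts (J : Ideal (𝓞 K)) ∧ absN ξ = j} :=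
    Finite.of_equiv _ ((idealSetEquivNorm K J j).symm.trans (idealSetNormEquiv J j).symm)
  exact h2

theorem finite_coneElts_le (J : (Ideal (𝓞 K))⁰) (c : ℝ) :
    {ξ : 𝓞 K | ξ ∈ coneElts (J : Ideal (𝓞 K)) ∧ (absN ξ : ℝ) ≤ c}.Finite := by
  refine Set.Finite.subset (Set.Finite.biUnion (Finset.range (⌊c⌋₊ + 1)).finite_toSet
    (fun j _ => finite_coneElts_eq J j)) ?_
  intro ξ hξ
  simp only [Set.mem_iUnion, Finset.coe_range, Set.mem_Iio, Set.mem_ofPred_eq, exists_prop]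
  refine ⟨absN ξ, ?_, hξ.1, rfl⟩
  have hc : 0 ≤ c := le_trans (Nat.cast_nonneg _) hξ.2
  exact Nat.lt_succ_of_le ((Nat.le_floor_iff hc).mpr hξ.2)

/-- elements of the cone in the same class have the same `|N ξ| / N J` modulo `m` -/
theorem absN_div_congr (J : (Ideal (𝓞 K))⁰) (m : ℕ) {ξ ξ' : 𝓞 K}
    (hξ : ξ ∈ coneElts (J : Ideal (𝓞 K))) (hξ' : ξ' ∈ coneElts (J : Ideal (𝓞 K)))
    (h : cls (J : Ideal (𝓞 K)) (m * absNorm (J : Ideal (𝓞 K))) ξ =
      cls (J : Ideal (𝓞 K)) (m * absNorm (J : Ideal (𝓞 K))) ξ') :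
    ((absN ξ / absNorm (J : Ideal (𝓞 K)) : ℕ) : ZMod m) =
      ((absN ξ' / absNorm (J : Ideal (𝓞 K)) : ℕ) : ZMod m) := by
  set NJ := absNorm (J : Ideal (𝓞 K)) with hNJ
  have hNJ0 : NJ ≠ 0 := absNorm_ne_zero_of_nonZeroDivisors J
  have h1 : ξ - ξ' ∈ modIdeal (J : Ideal (𝓞 K)) (m * NJ) :=
    Ideal.Quotient.eq.mp (congrArg Prod.fst h)
  have h2 : ((m * NJ : ℕ) : 𝓞 K) ∣ ξ - ξ' :=
    Ideal.mem_span_singleton.mp (modIdeal_le_span _ _ h1)
  have h3 : ((m * NJ : ℕ) : ℤ) ∣ Algebra.norm ℤ ξ - Algebra.norm ℤ ξ' := by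
    refine dvd_norm_sub_norm (R := ℤ) (S := 𝓞 K) ?_
    rw [eq_intCast, Int.cast_natCast]
    exact h2
  have hs : (0 < Algebra.norm ℤ ξ ↔ 0 < Algebra.norm ℤ ξ') := by
    have := congrArg Prod.snd h
    simpa [cls] using this
  have hn : Algebra.norm ℤ ξ ≠ 0 := by
    have := absN_ne_zero_of_mem_coneElts hξ
    rwa [absN, Ne, Int.natAbs_eq_zero] at this
  have hn' : Algebra.norm ℤ ξ' ≠ 0 := by
    have := absN_ne_zero_of_mem_coneElts hξ'
    rwa [absN, Ne, Int.natAbs_eq_zero] at this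
  have h4 : ((m * NJ : ℕ) : ℤ) ∣ (absN ξ : ℤ) - (absN ξ' : ℤ) := by
    by_cases hp : 0 < Algebra.norm ℤ ξ
    · have hp' := hs.mp hp
      rw [absN, absN, Int.natAbs_of_nonneg hp.le, Int.natAbs_of_nonneg hp'.le]
      exact h3
    · have hp' : ¬ 0 < Algebra.norm ℤ ξ' := fun h => hp (hs.mpr h)
      rw [absN, absN, Int.ofNat_natAbs_of_nonpos (not_lt.mp hp),
        Int.ofNat_natAbs_of_nonpos (not_lt.mp hp')]
      have : -Algebra.norm ℤ ξ - -Algebra.norm ℤ ξ' =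
          -(Algebra.norm ℤ ξ - Algebra.norm ℤ ξ') := by ring
      rw [this]
      exact (dvd_neg).mpr h3
  obtain ⟨u, hu⟩ := absNorm_dvd_absN hξ.1
  obtain ⟨u', hu'⟩ := absNorm_dvd_absN hξ'.1
  rw [← hNJ] at hu hu'
  rw [hu, hu', Nat.mul_div_cancel_left _ (Nat.pos_of_ne_zero hNJ0),
    Nat.mul_div_cancel_left _ (Nat.pos_of_ne_zero hNJ0)]
  rw [hu, hu'] at h4
  have h5 : (m : ℤ) ∣ (u : ℤ) - (u' : ℤ) := by
    have h6 : ((m * NJ : ℕ) : ℤ) ∣ (NJ : ℤ) * ((u : ℤ) - (u' : ℤ)) := by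
      have : ((NJ * u : ℕ) : ℤ) - ((NJ * u' : ℕ) : ℤ) = (NJ : ℤ) * ((u : ℤ) - (u' : ℤ)) := by
        push_cast; ring
      rw [← this]; exact h4
    have h7 : (NJ : ℤ) * (m : ℤ) ∣ (NJ : ℤ) * ((u : ℤ) - (u' : ℤ)) := by
      have : ((m * NJ : ℕ) : ℤ) = (NJ : ℤ) * (m : ℤ) := by push_cast; ring
      rw [← this]; exact h6
    exact (mul_dvd_mul_iff_left (by exact_mod_cast hNJ0 : (NJ : ℤ) ≠ 0)).mp h7
  have h8 : ((u' : ℤ) : ZMod m) = ((u : ℤ) : ZMod m) :=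
    (ZMod.intCast_eq_intCast_iff_dvd_sub _ _ _).mpr h5
  simpa using h8.symm

/-- **Counting in a class**: `#{ξ ∈ J ∩ cone : |N ξ| ≤ c, cls ξ = θ} = κ c + O(c^(1 - 1/d))`. -/
theorem exists_rate_cls (J : (Ideal (𝓞 K))⁰) {M : ℕ} (hM : M ≠ 0)
    (θ : (𝓞 K ⧸ modIdeal (J : Ideal (𝓞 K)) M) × Bool) :
    ∃ κ B : ℝ, 0 ≤ B ∧ ∀ c : ℝ, 1 ≤ c →
      |(({ξ : 𝓞 K | ξ ∈ coneElts (J : Ideal (𝓞 K)) ∧ (absN ξ : ℝ) ≤ c ∧
          cls (J : Ideal (𝓞 K)) M ξ = θ}).ncard : ℝ) - κ * c| ≤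
        B * c ^ (1 - 1 / (finrank ℚ K : ℝ)) := by
  by_cases hex : ∃ ξ₀ : 𝓞 K, ξ₀ ∈ (J : Ideal (𝓞 K)) ∧
      Ideal.Quotient.mk (modIdeal (J : Ideal (𝓞 K)) M) ξ₀ = θ.1
  swap
  · refine ⟨0, 0, le_refl _, fun c _ => ?_⟩
    have : {ξ : 𝓞 K | ξ ∈ coneElts (J : Ideal (𝓞 K)) ∧ (absN ξ : ℝ) ≤ c ∧
        cls (J : Ideal (𝓞 K)) M ξ = θ} = ∅ := by
      ext ξ
      simp only [Set.mem_ofPred_eq, Set.mem_empty_iff_false, iff_false, not_and]
      intro h1 _ h3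
      exact hex ⟨ξ, h1.1, congrArg Prod.fst h3⟩
    rw [this]
    simp
  obtain ⟨ξ₀, hξ₀J, hξ₀⟩ := hex
  set J'' : (Ideal (𝓞 K))⁰ := ⟨modIdeal (J : Ideal (𝓞 K)) M, modIdeal_mem_nonZeroDivisors J hM⟩
    with hJ''
  set L := idealLattice K (FractionalIdeal.mk0 K J'') with hL
  set v : mixedSpace K := mixedEmbedding K (ξ₀ : K) with hv
  have hfr : finrank ℝ (mixedSpace K) = finrank ℚ K := mixedEmbedding.finrank K
  have hd : 0 < finrank ℝ (mixedSpace K) := by rw [hfr]; exact Module.finrank_pos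
  obtain ⟨κ, B, hB0, hB⟩ := cosetConeCount_rate L (MeasureTheory.volume)
    (X := coneSign K θ.2) (F := fun x => mixedEmbedding.norm x)
    (fun x r hx hr => smul_mem_coneSign hx hr)
    (fun x r hr => by
      simp only [mixedEmbedding.norm_smul, abs_of_nonneg hr, hfr])
    (isBounded_coneSign θ.2)
    (by rw [hfr]; exact isThin_frontier_coneSign θ.2) hd v
  rw [hfr] at hB
  refine ⟨κ, B, hB0, fun c hc => ?_⟩
  have hcard : ({ξ : 𝓞 K | ξ ∈ coneElts (J : Ideal (𝓞 K)) ∧ (absN ξ : ℝ) ≤ c ∧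
      cls (J : Ideal (𝓞 K)) M ξ = θ}).ncard =
      Nat.card {x : mixedSpace K // (x ∈ coneSign K θ.2 ∧ mixedEmbedding.norm x ≤ c) ∧
        x - v ∈ L} := by
    rw [← Nat.card_coe_set_eq]
    refine Nat.card_congr ?_
    have hmemL : ∀ η : 𝓞 K, mixedEmbedding K (η : K) ∈ L ↔
        η ∈ modIdeal (J : Ideal (𝓞 K)) M := by
      intro η
      rw [hL, mem_idealLattice, FractionalIdeal.coe_mk0]
      constructor
      · rintro ⟨y, hy, hyη⟩
        rw [SetLike.mem_coe, FractionalIdeal.mem_coeIdeal] at hy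
        obtain ⟨y', hy', rfl⟩ := hy
        have : y' = η := mixedEmbedding_coe_injective hyη
        rw [← this]; exact hy'
      · intro hη
        refine ⟨(η : K), ?_, rfl⟩
        rw [SetLike.mem_coe, FractionalIdeal.mem_coeIdeal]
        exact ⟨η, hη, rfl⟩
    refine Equiv.ofBijective (fun ξ => ⟨mixedEmbedding K (ξ.1 : K), ?_, ?_⟩) ⟨?_, ?_⟩
    · obtain ⟨h1, h2, h3⟩ := ξ.2
      refine ⟨mem_coneSign.mpr ⟨h1.2, ?_⟩, ?_⟩
      · rw [sNorm_mixedEmbedding, Int.cast_pos]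
        have := congrArg Prod.snd h3
        simp only [cls] at this
        rw [← this]
        simp
      · rw [norm_mixedEmbedding_eq]; exact h2
    · obtain ⟨h1, h2, h3⟩ := ξ.2
      have : mixedEmbedding K (ξ.1 : K) - v = mixedEmbedding K ((ξ.1 - ξ₀ : 𝓞 K) : K) := by
        rw [hv]; simp [map_sub]
      rw [this, hmemL]
      have h4 := congrArg Prod.fst h3
      simp only [cls] at h4
      exact Ideal.Quotient.eq.mp (h4.trans hξ₀.symm)
    · intro ξ η h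
      have := congrArg Subtype.val h
      exact Subtype.ext (mixedEmbedding_coe_injective this)
    · rintro ⟨x, ⟨hx1, hx2⟩, hx3⟩
      obtain ⟨y, hy, hyx⟩ := (mem_idealLattice K _).mp hx3
      rw [FractionalIdeal.coe_mk0, SetLike.mem_coe, FractionalIdeal.mem_coeIdeal] at hy
      obtain ⟨η, hη, rfl⟩ := hy
      have hx : mixedEmbedding K ((ξ₀ + η : 𝓞 K) : K) = x := by
        have : x = v + (x - v) := by abel
        rw [this, ← hyx, hv]
        simp [map_add]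
      have hcone := mem_coneSign.mp hx1
      refine ⟨⟨ξ₀ + η, ⟨?_, ?_⟩, ?_, ?_⟩, Subtype.ext hx⟩
      · exact (J : Ideal (𝓞 K)).add_mem hξ₀J (modIdeal_le _ _ hη)
      · rw [hx]; exact hcone.1
      · rw [← norm_mixedEmbedding_eq, hx]; exact hx2
      · refine Prod.ext ?_ ?_
        · show Ideal.Quotient.mk _ (ξ₀ + η) = θ.1
          rw [← hξ₀]
          refine Ideal.Quotient.eq.mpr ?_
          simpa using hη
        · show decide (0 < Algebra.norm ℤ (ξ₀ + η)) = θ.2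
          have h5 := hcone.2
          rw [← hx, sNorm_mixedEmbedding, Int.cast_pos] at h5
          by_cases hp : 0 < Algebra.norm ℤ (ξ₀ + η)
          · rw [decide_eq_true hp]; exact (h5.mp hp).symm
          · rw [decide_eq_false hp]
            cases hθ : θ.2
            · rfl
            · exact absurd (h5.mpr hθ) hp
  rw [hcard]
  exact hB c hc

end Fermat.Agent.H67.Ch2
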