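import Mathlib
import Fermat.Agent.H67.Ch2Core
import Fermat.Agent.H62.Cheb2.Interfaces

/-!
# P-CHEB phase 2, CH2-COUNT: character sums over ideals with a power saving

`∑_{1 ≤ N(I) ≤ n} χ(N I) = c n + O(n ^ (1 - 1/[E:ℚ]))` for every Dirichlet character `χ`
(`Fermat.Agent.H62.Cheb2.IdealCharSumStatement`).
-/

set_option autoImplicit false
set_option linter.unusedSectionVars false

namespace Fermat.Agent.H67.Ch2

open NumberField NumberField.mixedEmbedding NumberField.InfinitePlace Module Ideal Submodule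
  NumberField.mixedEmbedding.fundamentalCone NumberField.Units
open scoped nonZeroDivisors Classical

variable {K : Type*} [Field K] [NumberField K]

section PerIdeal

variable (J : (Ideal (𝓞 K))⁰) (m : ℕ)

/-- the value of `|N ξ| / N J` modulo `m` is a function of the class -/
theorem exists_tau :
    ∃ τ : (𝓞 K ⧸ modIdeal (J : Ideal (𝓞 K)) (m * absNorm (J : Ideal (𝓞 K)))) × Bool → ZMod m,
      ∀ ξ ∈ coneElts (J : Ideal (𝓞 K)),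
        ((absN ξ / absNorm (J : Ideal (𝓞 K)) : ℕ) : ZMod m) =
          τ (cls (J : Ideal (𝓞 K)) (m * absNorm (J : Ideal (𝓞 K))) ξ) := by
  refine ⟨fun θ => if h : ∃ ξ ∈ coneElts (J : Ideal (𝓞 K)),
      cls (J : Ideal (𝓞 K)) (m * absNorm (J : Ideal (𝓞 K))) ξ = θ
    then ((absN h.choose / absNorm (J : Ideal (𝓞 K)) : ℕ) : ZMod m) else 0, fun ξ hξ => ?_⟩
  have h : ∃ ξ' ∈ coneElts (J : Ideal (𝓞 K)),
      cls (J : Ideal (𝓞 K)) (m * absNorm (J : Ideal (𝓞 K))) ξ' =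
        cls (J : Ideal (𝓞 K)) (m * absNorm (J : Ideal (𝓞 K))) ξ := ⟨ξ, hξ, rfl⟩
  beta_reduce
  rw [dif_pos h]
  exact absN_div_congr J m hξ h.choose_spec.1 h.choose_spec.2.symm

variable [NeZero m] (χ : DirichletCharacter ℂ m)

/-- regrouping the character sum according to the classes -/
theorem sum_char_eq (NJ : ℕ) (hNJ : NJ = absNorm (J : Ideal (𝓞 K)))
    [Fintype (𝓞 K ⧸ modIdeal (J : Ideal (𝓞 K)) (m * NJ))]
    (τ : (𝓞 K ⧸ modIdeal (J : Ideal (𝓞 K)) (m * NJ)) × Bool → ZMod m)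
    (hτ : ∀ ξ ∈ coneElts (J : Ideal (𝓞 K)),
      ((absN ξ / NJ : ℕ) : ZMod m) = τ (cls (J : Ideal (𝓞 K)) (m * NJ) ξ)) (n : ℕ) :
    ∑ k ∈ Finset.Icc 1 n, χ (k : ZMod m) *
        (Nat.card {ξ : 𝓞 K // ξ ∈ coneElts (J : Ideal (𝓞 K)) ∧ absN ξ = k * NJ} : ℂ) =
      ∑ θ, χ (τ θ) *
        (({ξ : 𝓞 K | ξ ∈ coneElts (J : Ideal (𝓞 K)) ∧
          (absN ξ : ℝ) ≤ ((n * NJ : ℕ) : ℝ) ∧
          cls (J : Ideal (𝓞 K)) (m * NJ) ξ = θ}).ncard : ℂ) := by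
  have hNJ0 : 0 < NJ := by
    rw [hNJ]; exact Nat.pos_of_ne_zero (absNorm_ne_zero_of_nonZeroDivisors J)
  set 𝒳 : Finset (𝓞 K) := (finite_coneElts_le J ((n * NJ : ℕ) : ℝ)).toFinset with h𝒳
  have hmem : ∀ ξ, ξ ∈ 𝒳 ↔ ξ ∈ coneElts (J : Ideal (𝓞 K)) ∧ absN ξ ≤ n * NJ := by
    intro ξ
    rw [h𝒳, Set.Finite.mem_toFinset, Set.mem_ofPred_eq, Nat.cast_le]
  set g : 𝓞 K → ℕ := fun ξ => absN ξ / NJ with hg
  have hgmul : ∀ ξ ∈ coneElts (J : Ideal (𝓞 K)), NJ * g ξ = absN ξ := fun ξ hξ =>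
    Nat.mul_div_cancel' (by rw [hNJ]; exact absNorm_dvd_absN hξ.1)
  have hmaps : ∀ ξ ∈ 𝒳, g ξ ∈ Finset.Icc 1 n := by
    intro ξ hξ
    obtain ⟨h1, h2⟩ := (hmem ξ).mp hξ
    have h3 := hgmul ξ h1
    have h4 := absN_ne_zero_of_mem_coneElts h1
    rw [Finset.mem_Icc]
    constructor
    · rw [Nat.one_le_iff_ne_zero]
      intro h0
      rw [h0, mul_zero] at h3
      exact h4 h3.symm
    · rw [← h3, mul_comm] at h2
      exact Nat.le_of_mul_le_mul_right h2 hNJ0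
  -- the fibres of `g`
  have hfib : ∀ k : ℕ, Nat.card {ξ : 𝓞 K // ξ ∈ coneElts (J : Ideal (𝓞 K)) ∧ absN ξ = k * NJ} =
      if k ∈ Finset.Icc 1 n then (𝒳.filter (fun ξ => g ξ = k)).card
      else Nat.card {ξ : 𝓞 K // ξ ∈ coneElts (J : Ideal (𝓞 K)) ∧ absN ξ = k * NJ} := by
    intro k
    split_ifs with hk
    · rw [← Set.ncard_coe_finset, ← Nat.card_coe_set_eq]
      refine Nat.card_congr (Equiv.subtypeEquivRight fun ξ => ?_)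
      rw [Finset.mem_coe, Finset.mem_filter, hmem]
      constructor
      · rintro ⟨h1, h2⟩
        refine ⟨⟨h1, ?_⟩, ?_⟩
        · rw [h2]
          exact Nat.mul_le_mul_right _ (Finset.mem_Icc.mp hk).2
        · have := hgmul ξ h1
          rw [h2, mul_comm] at this
          exact Nat.eq_of_mul_eq_mul_right hNJ0 this
      · rintro ⟨⟨h1, -⟩, h3⟩
        refine ⟨h1, ?_⟩
        rw [← hgmul ξ h1, h3, mul_comm]
    · rfl
  have hfibθ : ∀ θ, ({ξ : 𝓞 K | ξ ∈ coneElts (J : Ideal (𝓞 K)) ∧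
      (absN ξ : ℝ) ≤ ((n * NJ : ℕ) : ℝ) ∧ cls (J : Ideal (𝓞 K)) (m * NJ) ξ = θ}).ncard =
      (𝒳.filter (fun ξ => cls (J : Ideal (𝓞 K)) (m * NJ) ξ = θ)).card := by
    intro θ
    rw [← Set.ncard_coe_finset]
    congr 1
    ext ξ
    rw [Finset.mem_coe, Finset.mem_filter, hmem, Set.mem_ofPred_eq, Nat.cast_le]
    tauto
  calc ∑ k ∈ Finset.Icc 1 n, χ (k : ZMod m) *
        (Nat.card {ξ : 𝓞 K // ξ ∈ coneElts (J : Ideal (𝓞 K)) ∧ absN ξ = k * NJ} : ℂ)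
      = ∑ k ∈ Finset.Icc 1 n, ∑ ξ ∈ 𝒳 with g ξ = k, χ ((g ξ : ℕ) : ZMod m) := by
        refine Finset.sum_congr rfl fun k hk => ?_
        rw [hfib k, if_pos hk]
        rw [Finset.sum_congr rfl (fun ξ hξ => by rw [(Finset.mem_filter.mp hξ).2] :
          ∀ ξ ∈ 𝒳.filter (fun ξ => g ξ = k), χ ((g ξ : ℕ) : ZMod m) = χ (k : ZMod m))]
        rw [Finset.sum_const, nsmul_eq_mul, mul_comm]
    _ = ∑ ξ ∈ 𝒳, χ ((g ξ : ℕ) : ZMod m) := Finset.sum_fiberwise_of_maps_to hmaps _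
    _ = ∑ ξ ∈ 𝒳, χ (τ (cls (J : Ideal (𝓞 K)) (m * NJ) ξ)) := by
        refine Finset.sum_congr rfl fun ξ hξ => ?_
        rw [hg]
        beta_reduce
        rw [hτ ξ ((hmem ξ).mp hξ).1]
    _ = ∑ θ, ∑ ξ ∈ 𝒳 with cls (J : Ideal (𝓞 K)) (m * NJ) ξ = θ,
          χ (τ (cls (J : Ideal (𝓞 K)) (m * NJ) ξ)) :=
        (Finset.sum_fiberwise 𝒳 (fun ξ => cls (J : Ideal (𝓞 K)) (m * NJ) ξ) _).symm
    _ = ∑ θ, χ (τ θ) * (({ξ : 𝓞 K | ξ ∈ coneElts (J : Ideal (𝓞 K)) ∧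
          (absN ξ : ℝ) ≤ ((n * NJ : ℕ) : ℝ) ∧
          cls (J : Ideal (𝓞 K)) (m * NJ) ξ = θ}).ncard : ℂ) := by
        refine Finset.sum_congr rfl fun θ _ => ?_
        rw [hfibθ θ]
        rw [Finset.sum_congr rfl (fun ξ hξ => by rw [(Finset.mem_filter.mp hξ).2] :
          ∀ ξ ∈ 𝒳.filter (fun ξ => cls (J : Ideal (𝓞 K)) (m * NJ) ξ = θ),
            χ (τ (cls (J : Ideal (𝓞 K)) (m * NJ) ξ)) = χ (τ θ))]
        rw [Finset.sum_const, nsmul_eq_mul, mul_comm]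

/-- **Character sum over the cone points of one ideal.** -/
theorem exists_rate_ideal :
    ∃ (c : ℂ) (B : ℝ), 0 ≤ B ∧ ∀ n : ℕ, 1 ≤ n →
      ‖(∑ k ∈ Finset.Icc 1 n, χ (k : ZMod m) *
        (Nat.card {ξ : 𝓞 K // ξ ∈ coneElts (J : Ideal (𝓞 K)) ∧
          absN ξ = k * absNorm (J : Ideal (𝓞 K))} : ℂ)) - c * (n : ℂ)‖ ≤
        B * (n : ℝ) ^ (1 - 1 / (finrank ℚ K : ℝ)) := by
  set NJ := absNorm (J : Ideal (𝓞 K)) with hNJ
  have hNJ0 : 0 < NJ := Nat.pos_of_ne_zero (absNorm_ne_zero_of_nonZeroDivisors J)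
  have hM : m * NJ ≠ 0 := Nat.mul_ne_zero (NeZero.ne m) hNJ0.ne'
  have hbot : modIdeal (J : Ideal (𝓞 K)) (m * NJ) ≠ ⊥ := by
    have := modIdeal_mem_nonZeroDivisors J hM
    rwa [mem_nonZeroDivisors_iff_ne_zero, Ne, Ideal.zero_eq_bot] at this
  have : Finite (𝓞 K ⧸ modIdeal (J : Ideal (𝓞 K)) (m * NJ)) :=
    Ideal.finiteQuotientOfFreeOfNeBot _ hbot
  let _ : Fintype (𝓞 K ⧸ modIdeal (J : Ideal (𝓞 K)) (m * NJ)) := Fintype.ofFinite _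
  obtain ⟨τ, hτ⟩ : ∃ τ : (𝓞 K ⧸ modIdeal (J : Ideal (𝓞 K)) (m * NJ)) × Bool → ZMod m,
      ∀ ξ ∈ coneElts (J : Ideal (𝓞 K)),
        ((absN ξ / NJ : ℕ) : ZMod m) = τ (cls (J : Ideal (𝓞 K)) (m * NJ) ξ) := exists_tau J m
  choose κ B hB0 hB using fun θ => exists_rate_cls J hM θ
  set e : ℝ := 1 - 1 / (finrank ℚ K : ℝ) with he
  refine ⟨∑ θ, χ (τ θ) * ((κ θ * NJ : ℝ) : ℂ), ∑ θ, B θ * (NJ : ℝ) ^ e,
    Finset.sum_nonneg fun θ _ => mul_nonneg (hB0 θ) (Real.rpow_nonneg (Nat.cast_nonneg _) _),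
    fun n hn => ?_⟩
  rw [sum_char_eq J m χ NJ hNJ τ hτ n, Finset.sum_mul, ← Finset.sum_sub_distrib, Finset.sum_mul]
  refine (norm_sum_le _ _).trans (Finset.sum_le_sum fun θ _ => ?_)
  have hn1 : (1 : ℝ) ≤ ((n * NJ : ℕ) : ℝ) := by
    have : 1 ≤ n * NJ := Nat.one_le_iff_ne_zero.mpr (Nat.mul_ne_zero (by omega) hNJ0.ne')
    exact_mod_cast this
  have h1 := hB θ _ hn1
  have h2 : χ (τ θ) * (({ξ : 𝓞 K | ξ ∈ coneElts (J : Ideal (𝓞 K)) ∧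
      (absN ξ : ℝ) ≤ ((n * NJ : ℕ) : ℝ) ∧ cls (J : Ideal (𝓞 K)) (m * NJ) ξ = θ}).ncard : ℂ) -
      χ (τ θ) * ((κ θ * NJ : ℝ) : ℂ) * (n : ℂ) =
      χ (τ θ) * (((({ξ : 𝓞 K | ξ ∈ coneElts (J : Ideal (𝓞 K)) ∧
      (absN ξ : ℝ) ≤ ((n * NJ : ℕ) : ℝ) ∧ cls (J : Ideal (𝓞 K)) (m * NJ) ξ = θ}).ncard : ℝ) -
      κ θ * ((n * NJ : ℕ) : ℝ) : ℝ) : ℂ) := by
    push_cast; ring
  rw [h2, norm_mul, Complex.norm_real, Real.norm_eq_abs]
  calc ‖χ (τ θ)‖ * |(({ξ : 𝓞 K | ξ ∈ coneElts (J : Ideal (𝓞 K)) ∧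
      (absN ξ : ℝ) ≤ ((n * NJ : ℕ) : ℝ) ∧ cls (J : Ideal (𝓞 K)) (m * NJ) ξ = θ}).ncard : ℝ) -
      κ θ * ((n * NJ : ℕ) : ℝ)|
      ≤ 1 * (B θ * ((n * NJ : ℕ) : ℝ) ^ e) :=
        mul_le_mul (DirichletCharacter.norm_le_one χ _) h1 (abs_nonneg _) zero_le_one
    _ = B θ * (NJ : ℝ) ^ e * (n : ℝ) ^ e := by
        rw [one_mul, Nat.cast_mul, Real.mul_rpow (Nat.cast_nonneg _) (Nat.cast_nonneg _)]
        ring

end PerIdeal

/-- **CH2-COUNT**: `∑_{1 ≤ N(I) ≤ n} χ(N I) = c n + O(n ^ (1 - 1/[E:ℚ]))`. -/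
theorem idealCharSum : Fermat.Agent.H62.Cheb2.IdealCharSumStatement := by
  intro E _ _ m _ χ
  choose J hJ using fun C : ClassGroup (𝓞 E) => ClassGroup.mk0_surjective C⁻¹
  choose c B hB0 hB using fun C => exists_rate_ideal (J C) m χ
  have hw : (0 : ℝ) < torsionOrder E := Nat.cast_pos.mpr (torsionOrder_pos E)
  have hw' : (torsionOrder E : ℂ) ≠ 0 := by exact_mod_cast (torsionOrder_pos E).ne'
  refine ⟨(∑ C, c C) / (torsionOrder E : ℂ), (∑ C, B C) / (torsionOrder E : ℝ), fun n => ?_⟩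
  rcases Nat.eq_zero_or_pos n with rfl | hn
  · simp only [Finset.Icc_eq_empty_of_lt zero_lt_one, Finset.sum_empty, Nat.cast_zero, mul_zero,
      sub_zero, norm_zero]
    exact mul_nonneg (div_nonneg (Finset.sum_nonneg fun C _ => hB0 C) hw.le)
      (Real.rpow_nonneg le_rfl _)
  · have hcoef : ∀ k ∈ Finset.Icc 1 n,
        Fermat.Agent.H62.Cheb2.normCharCoeff E m χ k * (torsionOrder E : ℂ) =
        ∑ C, χ (k : ZMod m) * (Nat.card {ξ : 𝓞 E // ξ ∈ coneElts (J C : Ideal (𝓞 E)) ∧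
          absN ξ = k * absNorm (J C : Ideal (𝓞 E))} : ℂ) := by
      intro k hk
      have hk0 : k ≠ 0 := by
        have := (Finset.mem_Icc.mp hk).1
        omega
      have h := idealCount_mul_torsionOrder J hJ hk0
      unfold Fermat.Agent.H62.Cheb2.normCharCoeff Fermat.Agent.H62.Cheb2.idealCount
      rw [mul_assoc, ← Finset.mul_sum]
      congr 1
      exact_mod_cast h
    have hsum : (∑ k ∈ Finset.Icc 1 n, Fermat.Agent.H62.Cheb2.normCharCoeff E m χ k) *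
        (torsionOrder E : ℂ) =
        ∑ C, ∑ k ∈ Finset.Icc 1 n, χ (k : ZMod m) *
          (Nat.card {ξ : 𝓞 E // ξ ∈ coneElts (J C : Ideal (𝓞 E)) ∧
            absN ξ = k * absNorm (J C : Ideal (𝓞 E))} : ℂ) := by
      rw [Finset.sum_mul, Finset.sum_comm]
      exact Finset.sum_congr rfl hcoef
    have heq : (∑ k ∈ Finset.Icc 1 n, Fermat.Agent.H62.Cheb2.normCharCoeff E m χ k) -
        (∑ C, c C) / (torsionOrder E : ℂ) * (n : ℂ) =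
        (∑ C, ((∑ k ∈ Finset.Icc 1 n, χ (k : ZMod m) *
          (Nat.card {ξ : 𝓞 E // ξ ∈ coneElts (J C : Ideal (𝓞 E)) ∧
            absN ξ = k * absNorm (J C : Ideal (𝓞 E))} : ℂ)) - c C * (n : ℂ))) /
          (torsionOrder E : ℂ) := by
      rw [eq_div_iff hw', sub_mul, hsum, Finset.sum_sub_distrib, ← Finset.sum_mul]
      congr 1
      field_simp
    rw [heq, norm_div, Complex.norm_natCast, div_mul_eq_mul_div, div_le_div_iff_of_pos_right hw]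
    calc ‖∑ C, ((∑ k ∈ Finset.Icc 1 n, χ (k : ZMod m) *
          (Nat.card {ξ : 𝓞 E // ξ ∈ coneElts (J C : Ideal (𝓞 E)) ∧
            absN ξ = k * absNorm (J C : Ideal (𝓞 E))} : ℂ)) - c C * (n : ℂ))‖
        ≤ ∑ C, ‖(∑ k ∈ Finset.Icc 1 n, χ (k : ZMod m) *
          (Nat.card {ξ : 𝓞 E // ξ ∈ coneElts (J C : Ideal (𝓞 E)) ∧
            absN ξ = k * absNorm (J C : Ideal (𝓞 E))} : ℂ)) - c C * (n : ℂ)‖ := norm_sum_le _ _
      _ ≤ ∑ C, B C * (n : ℝ) ^ (1 - 1 / (finrank ℚ E : ℝ)) :=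
          Finset.sum_le_sum fun C _ => hB C n hn
      _ = (∑ C, B C) * (n : ℝ) ^ (1 - 1 / (finrank ℚ E : ℝ)) := (Finset.sum_mul _ _ _).symm

end Fermat.Agent.H67.Ch2
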