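import Mathlib

/-!
# Irreducibility of `X ^ e - a` over a field containing a primitive `e`-th root of unity

Kummer-type criterion valid for every `e > 0` (no parity restriction): if `K` contains a
primitive `e`-th root of unity and `a` is not a `d`-th power for any prime `d ∣ e`, then
`X ^ e - C a` is irreducible.
-/

namespace Fermat.Agent.H67.KummerIrr

open Polynomial IntermediateField

/-- The norm of the generator of `K⟮x⟯` when `minpoly K x = X ^ p - C a`. -/
theorem norm_gen_of_minpoly_eq {K : Type*} [Field K] {E : Type*} [Field E] [Algebra K E]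
    {p : ℕ} (hp : p ≠ 0) {a : K} (x : E) (hx : minpoly K x = X ^ p - C a) :
    Algebra.norm K (AdjoinSimple.gen K x) = (-1) ^ p * (-a) := by
  have hint : IsIntegral K x := not_not.mp fun h ↦ by
    simpa only [degree_zero, degree_X_pow_sub_C (Nat.pos_of_ne_zero hp),
      WithBot.natCast_ne_bot] using congr_arg degree (hx.symm.trans (dif_neg h))
  rw [← adjoin.powerBasis_gen hint, Algebra.PowerBasis.norm_gen_eq_coeff_zero_minpoly]
  simp [minpoly_gen, hx, hp.symm]

theorem X_pow_sub_C_irreducible_of_primitiveRoot {K : Type*} [Field K] {e : ℕ} (he : 0 < e)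
    {ζ : K} (hζ : IsPrimitiveRoot ζ e) {a : K}
    (ha : ∀ d : ℕ, d.Prime → d ∣ e → ∀ b : K, b ^ d ≠ a) :
    Irreducible (Polynomial.X ^ e - Polynomial.C a : Polynomial K) := by
  induction e using induction_on_primes generalizing K a ζ with
  | zero => exact absurd he (lt_irrefl _)
  | one => simpa using irreducible_X_sub_C a
  | prime_mul p n hp IH =>
    have hn : 0 < n := Nat.pos_of_mul_pos_left he
    rw [mul_comm]
    apply X_pow_mul_sub_C_irreducible
      (X_pow_sub_C_irreducible_of_prime hp (ha p hp (dvd_mul_right _ _)))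
    intro E _ _ x hx
    have hζ' : IsPrimitiveRoot (algebraMap K K⟮x⟯ (ζ ^ p)) n :=
      (hζ.pow he rfl).map_of_injective (algebraMap K K⟮x⟯).injective
    apply IH hn hζ'
    intro q hq hqn b hb
    have hnorm : Algebra.norm K b ^ q = (-1) ^ p * (-a) := by
      rw [← map_pow, hb]
      exact norm_gen_of_minpoly_eq hp.ne_zero x hx
    rcases hp.eq_two_or_odd' with rfl | hpodd
    · -- `p = 2`
      have hnorm' : Algebra.norm K b ^ q = -a := by simpa using hnorm
      rcases hq.eq_two_or_odd' with rfl | hqodd
      · -- `q = 2`: use a square root of `-1`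
        obtain ⟨m, rfl⟩ := hqn
        have h2 : IsPrimitiveRoot (ζ ^ (2 * m)) 2 :=
          hζ.pow he (by ring)
        have hi : (ζ ^ m) ^ 2 = -1 := by
          rw [← pow_mul, mul_comm]
          exact h2.eq_neg_one_of_two_right
        apply ha 2 Nat.prime_two (dvd_mul_right _ _) (ζ ^ m * Algebra.norm K b)
        rw [mul_pow, hi, hnorm']
        ring
      · -- `q` odd
        apply ha q hq (dvd_mul_of_dvd_right hqn 2) (-Algebra.norm K b)
        rw [hqodd.neg_pow, hnorm', neg_neg]
    · -- `p` odd
      apply ha q hq (dvd_mul_of_dvd_right hqn p) (Algebra.norm K b)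
      rw [hnorm, hpodd.neg_pow, one_pow]
      ring

end Fermat.Agent.H67.KummerIrr
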