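import Mathlib
import Fermat.Prelude.Def_FLTPrelim_Modularity

/-!
# P-DS, block (4a): the elementary Rankin bound

For a cusp form `f` of weight `k` for an arithmetic subgroup `Γ` with `1 ∈ Γ.strictPeriods`,
with `q`-expansion `∑ aₙ qⁿ`:  `∑_{n ≤ M} |aₙ|² ≤ C M^k`.

Proof: `|f(τ)| ≤ C₀ (im τ)^(-k/2)` (Mathlib, `CuspFormClass.exists_bound`) and Parseval on the
horizontal segment `[0, 1] + i t`, `t = 1 / M`: the `n`-th Fourier coefficient of
`u ↦ f (u + i t)` is `aₙ e^{-2 π n t}`.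
-/

set_option autoImplicit false

namespace Fermat.Agent.H67.DSRankin

open UpperHalfPlane Complex MeasureTheory ModularFormClass
open scoped Real

local notation "𝕢" => Function.Periodic.qParam

variable {k : ℤ} {Γ : Subgroup (GL (Fin 2) ℝ)} {F : Type*} [FunLike F ℍ ℂ]

/-- The `n`-th Fourier coefficient on `[0,1]` of `u ↦ f (u + i t)` is `aₙ e^{-2 π n t}`. -/
theorem fourierCoeffOn_line [ModularFormClass F Γ k] (f : F) (hΓ : (1 : ℝ) ∈ Γ.strictPeriods)
    {t : ℝ} (ht : 0 < t) (n : ℕ) :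
    fourierCoeffOn zero_lt_one (fun u : ℝ => f ⟨u + t * Complex.I, by simpa using ht⟩) (n : ℤ) =
      (qExpansion 1 f).coeff n * Real.exp (-2 * π * n * t) := by
  rw [fourierCoeffOn_eq_integral,
    ModularFormClass.qExpansion_coeff_eq_intervalIntegral f one_pos hΓ n ht]
  simp only [sub_zero, one_div, inv_one, one_smul, ofReal_one, one_mul]
  rw [← intervalIntegral.integral_mul_const]
  apply intervalIntegral.integral_congr
  intro u _
  simp only [fourier_coe_apply, smul_eq_mul]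
  have h1 : (𝕢 1 ((u : ℂ) + t * Complex.I) ^ n)⁻¹ * (Real.exp (-2 * π * n * t) : ℂ) =
      Complex.exp (2 * π * Complex.I * ((-(n : ℤ) : ℤ) : ℂ) * (u : ℂ) / ((1 - 0 : ℝ) : ℂ)) := by
    rw [Function.Periodic.qParam, ← Complex.exp_nat_mul, ← Complex.exp_neg, ofReal_exp,
      ← Complex.exp_add]
    congr 1
    push_cast
    have := Complex.I_sq
    linear_combination (-(2 * π * n * t) : ℂ) * this
  rw [← h1]
  ring

/-- Bessel's inequality on the horizontal line of height `t`. -/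
theorem sum_le_integral [Γ.IsArithmetic] [CuspFormClass F Γ k] (f : F)
    (hΓ : (1 : ℝ) ∈ Γ.strictPeriods) {t : ℝ} (ht : 0 < t) (M : ℕ) :
    ∑ n ∈ Finset.range (M + 1), ‖(qExpansion 1 f).coeff n‖ ^ 2 * Real.exp (-4 * π * n * t) ≤
      ∫ u in (0 : ℝ)..1, ‖f ⟨u + t * Complex.I, by simpa using ht⟩‖ ^ 2 := by
  set g : ℝ → ℂ := fun u : ℝ => f ⟨u + t * Complex.I, by simpa using ht⟩ with hg
  obtain ⟨C, hC⟩ := CuspFormClass.exists_bound (Γ := Γ) (k := k) f
  have hcont : Continuous g := by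
    simp only [hg]
    fun_prop
  have hL2 : MemLp g 2 (volume.restrict (Set.Ioc (0 : ℝ) 1)) := by
    refine MemLp.of_bound hcont.aestronglyMeasurable (C / t ^ (k / 2 : ℝ)) ?_
    refine Filter.Eventually.of_forall fun u => ?_
    have := hC ⟨u + t * Complex.I, by simpa using ht⟩
    simpa [UpperHalfPlane.im] using this
  have hsum := hasSum_sq_fourierCoeffOn zero_lt_one hL2
  simp only [sub_zero, inv_one, one_smul] at hsum
  have hle := sum_le_hasSum ((Finset.range (M + 1)).map Nat.castEmbedding)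
    (fun i _ => by positivity) hsum
  refine le_trans (le_of_eq ?_) hle
  rw [Finset.sum_map]
  refine Finset.sum_congr rfl fun n _ => ?_
  simp only [Nat.castEmbedding_apply]
  rw [fourierCoeffOn_line f hΓ ht n, norm_mul, mul_pow, Complex.norm_real, Real.norm_eq_abs,
    abs_of_pos (Real.exp_pos _), ← Real.exp_nat_mul]
  congr 2
  push_cast
  ring

/-- **Elementary Rankin bound**: `∑_{n ≤ M} |aₙ|² ≤ C M^k`. -/
theorem exists_sum_norm_sq_le [Γ.IsArithmetic] [CuspFormClass F Γ k] (f : F)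
    (hΓ : (1 : ℝ) ∈ Γ.strictPeriods) :
    ∃ C : ℝ, 0 ≤ C ∧ ∀ M : ℕ, 0 < M →
      ∑ n ∈ Finset.range (M + 1), ‖(qExpansion 1 f).coeff n‖ ^ 2 ≤ C * (M : ℝ) ^ (k : ℝ) := by
  obtain ⟨C₀, hC₀⟩ := CuspFormClass.exists_bound (Γ := Γ) (k := k) f
  refine ⟨Real.exp (4 * π) * C₀ ^ 2, by positivity, fun M hM => ?_⟩
  have hMpos : (0 : ℝ) < M := by exact_mod_cast hM
  have ht : (0 : ℝ) < 1 / M := by positivity
  have h1 := sum_le_integral (Γ := Γ) (k := k) f hΓ ht M
  -- the integral is bounded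
  have hint : ∫ u in (0 : ℝ)..1, ‖f ⟨u + (1 / M : ℝ) * Complex.I, by simpa using ht⟩‖ ^ 2 ≤
      C₀ ^ 2 * (M : ℝ) ^ (k : ℝ) := by
    have hcont : Continuous fun u : ℝ => ‖f ⟨u + (1 / M : ℝ) * Complex.I, by simpa using ht⟩‖ ^ 2 := by
      fun_prop
    have hbound : ∀ u ∈ Set.Icc (0 : ℝ) 1,
        ‖f ⟨u + (1 / M : ℝ) * Complex.I, by simpa using ht⟩‖ ^ 2 ≤ C₀ ^ 2 * (M : ℝ) ^ (k : ℝ) := by
      intro u _
      have h := hC₀ ⟨u + (1 / M : ℝ) * Complex.I, by simpa using ht⟩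
      have him : (⟨u + (1 / M : ℝ) * Complex.I, by simpa using ht⟩ : ℍ).im = 1 / M := by
        simp [UpperHalfPlane.im]
      rw [him] at h
      have hpos : (0 : ℝ) < (1 / (M : ℝ)) ^ (k / 2 : ℝ) := Real.rpow_pos_of_pos ht _
      have h2 : ‖f ⟨u + (1 / M : ℝ) * Complex.I, by simpa using ht⟩‖ ^ 2 ≤
          (C₀ / (1 / (M : ℝ)) ^ (k / 2 : ℝ)) ^ 2 :=
        pow_le_pow_left₀ (norm_nonneg _) h 2
      refine h2.trans (le_of_eq ?_)
      rw [div_pow, ← Real.rpow_natCast ((1 / (M : ℝ)) ^ (k / 2 : ℝ)) 2, ← Real.rpow_mul ht.le,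
        one_div, Real.inv_rpow hMpos.le, div_eq_mul_inv, inv_inv]
      congr 2
      push_cast
      ring
    have := intervalIntegral.integral_mono_on (μ := MeasureTheory.volume)
      (a := (0 : ℝ)) (b := 1) zero_le_one
      (hcont.intervalIntegrable (μ := MeasureTheory.volume) 0 1)
      (intervalIntegrable_const (μ := MeasureTheory.volume)) hbound
    simpa using this
  -- lower bound for the exponential weights
  have hexp : Real.exp (-(4 * π)) * ∑ n ∈ Finset.range (M + 1), ‖(qExpansion 1 f).coeff n‖ ^ 2 ≤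
      ∑ n ∈ Finset.range (M + 1),
        ‖(qExpansion 1 f).coeff n‖ ^ 2 * Real.exp (-4 * π * n * (1 / M : ℝ)) := by
    rw [Finset.mul_sum]
    refine Finset.sum_le_sum fun n hn => ?_
    rw [mul_comm]
    refine mul_le_mul_of_nonneg_left ?_ (by positivity)
    apply Real.exp_le_exp.mpr
    have hn' : (n : ℝ) ≤ M := by
      have := Finset.mem_range.mp hn
      exact_mod_cast Nat.lt_succ_iff.mp this
    have hratio : (n : ℝ) * (1 / M) ≤ 1 := by
      rw [mul_one_div, div_le_one hMpos]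
      exact hn'
    have hpi : (0 : ℝ) < 4 * π := by positivity
    nlinarith
  have h3 := (hexp.trans h1).trans hint
  have hE : Real.exp (4 * π) * Real.exp (-(4 * π)) = 1 := by
    rw [← Real.exp_add]; simp
  calc ∑ n ∈ Finset.range (M + 1), ‖(qExpansion 1 f).coeff n‖ ^ 2
      = Real.exp (4 * π) * (Real.exp (-(4 * π)) *
          ∑ n ∈ Finset.range (M + 1), ‖(qExpansion 1 f).coeff n‖ ^ 2) := by
        rw [← mul_assoc, hE, one_mul]
    _ ≤ Real.exp (4 * π) * (C₀ ^ 2 * (M : ℝ) ^ (k : ℝ)) :=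
        mul_le_mul_of_nonneg_left h3 (by positivity)
    _ = Real.exp (4 * π) * C₀ ^ 2 * (M : ℝ) ^ (k : ℝ) := by ring

/-- `1` is a strict period of `Γ₁(N)`. -/
theorem one_mem_strictPeriods_Gamma1 (N : ℕ) :
    (1 : ℝ) ∈ (Subgroup.map (Matrix.SpecialLinearGroup.mapGL ℝ)
      (CongruenceSubgroup.Gamma1 N)).strictPeriods := by
  have hT : ModularGroup.T ∈ CongruenceSubgroup.Gamma1 N := by
    rw [CongruenceSubgroup.Gamma1_mem]
    simp [ModularGroup.T]
  have h := Subgroup.strictPeriods_eq_zmultiples_one_of_T_mem hT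
  rw [h]
  exact AddSubgroup.mem_zmultiples (1 : ℝ)

/-- Integer-exponent form, including `M = 0` for cusp forms (the constant term vanishes). -/
theorem exists_sum_norm_sq_le_zpow [Γ.IsArithmetic] [CuspFormClass F Γ k] (f : F)
    (hΓ : (1 : ℝ) ∈ Γ.strictPeriods) :
    ∃ C : ℝ, 0 ≤ C ∧ ∀ M : ℕ,
      ∑ n ∈ Finset.range (M + 1), ‖(qExpansion 1 f).coeff n‖ ^ 2 ≤ C * (M : ℝ) ^ k := by
  obtain ⟨C, hC0, hC⟩ := exists_sum_norm_sq_le (Γ := Γ) (k := k) f hΓ
  refine ⟨C, hC0, fun M => ?_⟩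
  rcases Nat.eq_zero_or_pos M with rfl | hM
  · have h0 : (qExpansion 1 f).coeff 0 = 0 :=
      CuspFormClass.qExpansion_coeff_zero (Γ := Γ) (k := k) f one_pos hΓ
    simp only [zero_add, Finset.range_one, Finset.sum_singleton, h0, norm_zero]
    have : (0 : ℝ) ≤ ((0 : ℕ) : ℝ) ^ k := zpow_nonneg (by simp) _
    have := mul_nonneg hC0 this
    simpa using this
  · have := hC M hM
    rwa [Real.rpow_intCast] at this

/-- **Rankin partial-sum bound in the notation of S48**: for a weight-one cusp form on `Γ₁(N)`,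
`∑_{n ≤ x} |aₙ|² ≤ C x` (sum over `range (x+1)`). -/
theorem rankin_range (N : ℕ) [NeZero N] (f : CuspForm (CongruenceSubgroup.Gamma1 N) 1) :
    ∃ C : ℝ, 0 ≤ C ∧ ∀ x : ℕ,
      ∑ n ∈ Finset.range (x + 1), ‖ModularFormClass.qCoeff f n‖ ^ 2 ≤ C * x := by
  obtain ⟨C, hC0, hC⟩ := exists_sum_norm_sq_le_zpow
    (Γ := Subgroup.map (Matrix.SpecialLinearGroup.mapGL ℝ) (CongruenceSubgroup.Gamma1 N))
    (k := 1) f (one_mem_strictPeriods_Gamma1 N)
  refine ⟨C, hC0, fun x => ?_⟩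
  have := hC x
  simpa [ModularFormClass.qCoeff] using this

/-- Same with the sum over `1 ≤ n ≤ x`. -/
theorem rankin_Icc (N : ℕ) [NeZero N] (f : CuspForm (CongruenceSubgroup.Gamma1 N) 1) :
    ∃ C : ℝ, 0 ≤ C ∧ ∀ x : ℕ,
      ∑ n ∈ Finset.Icc 1 x, ‖ModularFormClass.qCoeff f n‖ ^ 2 ≤ C * x := by
  obtain ⟨C, hC0, hC⟩ := rankin_range N f
  refine ⟨C, hC0, fun x => le_trans ?_ (hC x)⟩
  refine Finset.sum_le_sum_of_subset_of_nonneg ?_ (fun _ _ _ => by positivity)
  intro n hn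
  rw [Finset.mem_Icc] at hn
  exact Finset.mem_range.mpr (Nat.lt_succ_of_le hn.2)

end Fermat.Agent.H67.DSRankin
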