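import Fermat.Agent.H6.DS.Interfaces
import Fermat.Agent.H67.DSRankin

/-!
# P-DS, block (4a): `ParsevalStatement` of the interface file of blocks (2), (4)
-/

set_option autoImplicit false

namespace Fermat.Agent.H67.DSRankin

/-- (DS-4A) of `Fermat.Agent.H6.DS.Interfaces`. -/
theorem parsevalStatement : Fermat.Agent.H6.DS.ParsevalStatement := by
  intro N _ f
  obtain ⟨C, -, hC⟩ := rankin_range N f
  exact ⟨C, hC⟩

end Fermat.Agent.H67.DSRankin
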