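import Fermat.Agent.H67.KLConn
import Fermat.Agent.H22.ES.Interfaces

/-!
# KL-CONN in the shape of the P-ES interface

`Fermat.Agent.H67.KLConn.connectednessStatement : Fermat.Agent.H22.ES.ConnectednessStatement`.

The saturation of constants is not a hypothesis of the interface; it is replaced by the
two-chart version (an element of `A` which is divisible by `π` in both charts is divisible by
`π` in `A`), which follows from `Rf ∩ Ri = A` when `E` has no `π`-torsion.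
-/

set_option autoImplicit false

namespace Fermat.Agent.H67.KLConn

variable {A E : Type*} [CommRing A] [CommRing E] [Algebra A E]

/-- **KL-CONN**, with two-chart saturation of constants. -/
theorem connected_two [IsNoetherianRing A] (π : A) {x y : E} (hxy : x * y = 1)
    (Rf Ri : Subalgebra A E) (hx : x ∈ Rf) (hy : y ∈ Ri)
    (hgen : ∃ s : Finset E, (∀ b ∈ s, b ∈ Rf) ∧
      ∀ r ∈ Rf, ∃ p : E → Polynomial A, r = ∑ b ∈ s, Polynomial.aeval x (p b) * b)
    (hmid_f : ∀ r ∈ Rf, ∃ k : ℕ, y ^ k * r ∈ Ri)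
    (hmid_i : ∀ r ∈ Ri, ∃ k : ℕ, x ^ k * r ∈ Rf)
    (hcap : ∀ z, z ∈ Rf → z ∈ Ri → ∃ α : A, algebraMap A E α = z)
    (hsat : ∀ α : A, PiDvd π Rf 1 (algebraMap A E α) → PiDvd π Ri 1 (algebraMap A E α) → π ∣ α)
    (hconn : ∀ α : A, π ∣ α ^ 2 - α → π ∣ α ∨ π ∣ α - 1)
    {a b : E} (ha : a ∈ Rf) (hb : b ∈ Ri)
    (ha2 : PiDvd π Rf 1 (a ^ 2 - a)) (hb2 : PiDvd π Ri 1 (b ^ 2 - b))
    (hab : PiDvd π (Rf ⊔ Ri) 1 (a - b)) :
    (PiDvd π Rf 1 a ∧ PiDvd π Ri 1 b) ∨ (PiDvd π Rf 1 (a - 1) ∧ PiDvd π Ri 1 (b - 1)) := by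
  obtain ⟨N, hNfg, hN⟩ := exists_fg_complement hxy Rf Ri hx hy hgen hmid_f hmid_i
  obtain ⟨t, ht⟩ := exists_torsion_bound π
    (Subalgebra.toSubmodule Rf ⊔ Subalgebra.toSubmodule Ri) N hNfg
  obtain ⟨a', ha', ha'1, ha'2⟩ := exists_lift π Rf ha ha2 t
  obtain ⟨b', hb', hb'1, hb'2⟩ := exists_lift π Ri hb hb2 t
  have hle_f : Rf ≤ Rf ⊔ Ri := le_sup_left
  have hle_i : Ri ≤ Rf ⊔ Ri := le_sup_right
  have hd1 : PiDvd π (Rf ⊔ Ri) 1 (a' - b') := by
    have e : a' - b' = (a' - a) + (a - b) - (b' - b) := by ring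
    rw [e]
    exact ((ha'1.of_le hle_f).add hab).sub (hb'1.of_le hle_i)
  obtain ⟨c, hc, hcd⟩ := lift_unique π (Rf ⊔ Ri) (t + 1) (ha'2.of_le hle_f) (hb'2.of_le hle_i)
    (hle_f ha') (hle_i hb') hd1
  have hcP : π ^ (t + 1) • c ∈ Subalgebra.toSubmodule Rf ⊔ Subalgebra.toSubmodule Ri := by
    rw [← hcd, sub_eq_add_neg]
    exact Submodule.add_mem_sup ha' (Ri.neg_mem hb')
  obtain ⟨u, hu, v, hv, huv⟩ := Submodule.mem_sup.mp (ht (t + 1) c (hN c hc) hcP)
  have hu' : u ∈ Rf := hu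
  have hv' : v ∈ Ri := hv
  have hdiff : a' - b' = π • u + π • v := by
    rw [hcd, pow_succ', mul_smul, ← huv, smul_add]
  have heRf : a' - π • u ∈ Rf := Rf.sub_mem ha' (Rf.smul_mem hu' _)
  have heRi : a' - π • u ∈ Ri := by
    have e : a' - π • u = b' + π • v := by linear_combination hdiff
    rw [e]
    exact Ri.add_mem hb' (Ri.smul_mem hv' _)
  obtain ⟨α, hα⟩ := hcap _ heRf heRi
  have hpiu : PiDvd π Rf 1 (π • u) := ⟨u, hu', by rw [pow_one]⟩
  have hpiv : PiDvd π Ri 1 (π • v) := ⟨v, hv', by rw [pow_one]⟩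
  have hea : PiDvd π Rf 1 (algebraMap A E α - a) := by
    rw [hα]
    have e : a' - π • u - a = (a' - a) - π • u := by ring
    rw [e]
    exact ha'1.sub hpiu
  have heb : PiDvd π Ri 1 (algebraMap A E α - b) := by
    rw [hα]
    have e : a' - π • u - b = (b' - b) + π • v := by linear_combination hdiff
    rw [e]
    exact hb'1.add hpiv
  have hidem_f : PiDvd π Rf 1 (algebraMap A E (α ^ 2 - α)) := by
    have e : algebraMap A E (α ^ 2 - α) =
        (a ^ 2 - a) + (algebraMap A E α - a) * (algebraMap A E α + a - 1) := by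
      rw [map_sub, map_pow]; ring
    rw [e]
    refine ha2.add (hea.mul_right ?_)
    exact Rf.sub_mem (Rf.add_mem (Rf.algebraMap_mem α) ha) Rf.one_mem
  have hidem_i : PiDvd π Ri 1 (algebraMap A E (α ^ 2 - α)) := by
    have e : algebraMap A E (α ^ 2 - α) =
        (b ^ 2 - b) + (algebraMap A E α - b) * (algebraMap A E α + b - 1) := by
      rw [map_sub, map_pow]; ring
    rw [e]
    refine hb2.add (heb.mul_right ?_)
    exact Ri.sub_mem (Ri.add_mem (Ri.algebraMap_mem α) hb) Ri.one_mem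
  rcases hconn α (hsat _ hidem_f hidem_i) with ⟨γ, hγ⟩ | ⟨γ, hγ⟩
  · left
    have hconst : ∀ R : Subalgebra A E, PiDvd π R 1 (algebraMap A E α) := by
      intro R
      refine ⟨algebraMap A E γ, R.algebraMap_mem γ, ?_⟩
      rw [hγ, pow_one, map_mul, Algebra.smul_def]
    constructor
    · have e : a = algebraMap A E α - (algebraMap A E α - a) := by ring
      rw [e]
      exact (hconst Rf).sub hea
    · have e : b = algebraMap A E α - (algebraMap A E α - b) := by ring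
      rw [e]
      exact (hconst Ri).sub heb
  · right
    have hconst : ∀ R : Subalgebra A E, PiDvd π R 1 (algebraMap A E α - 1) := by
      intro R
      refine ⟨algebraMap A E γ, R.algebraMap_mem γ, ?_⟩
      rw [pow_one, Algebra.smul_def, ← map_mul, ← hγ, map_sub, map_one]
    constructor
    · have e : a - 1 = (algebraMap A E α - 1) - (algebraMap A E α - a) := by ring
      rw [e]
      exact (hconst Rf).sub hea
    · have e : b - 1 = (algebraMap A E α - 1) - (algebraMap A E α - b) := by ring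
      rw [e]
      exact (hconst Ri).sub heb

theorem piDvd_one_iff {π : A} {R : Subalgebra A E} {z : E} :
    PiDvd π R 1 z ↔ ∃ c ∈ R, z = algebraMap A E π * c := by
  unfold PiDvd
  simp only [pow_one, Algebra.smul_def]

/-- **(B7) CONNECTEDNESS** in the shape of the P-ES architecture. -/
theorem connectednessStatement : Fermat.Agent.H22.ES.ConnectednessStatement := by
  intro A₀ _ _ _ E _ _ hinj ϖ hϖ x hx0 Rfin Rinf hx hxinv hgen hmid_f hmid_i hcap a ha b hb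
    ha2 hb2 hab
  have hprime : Prime ϖ := hϖ.prime
  have hϖE : algebraMap A₀ E ϖ ≠ 0 := by
    intro h
    exact hϖ.ne_zero (hinj (by rw [h, map_zero]))
  have hxy : x * x⁻¹ = 1 := mul_inv_cancel₀ hx0
  -- generators in polynomial form
  have hgen' : ∃ s : Finset E, (∀ b ∈ s, b ∈ Rfin) ∧
      ∀ r ∈ Rfin, ∃ p : E → Polynomial A₀, r = ∑ b ∈ s, Polynomial.aeval x (p b) * b := by
    obtain ⟨s, hs, hspan⟩ := hgen
    refine ⟨s, hs, fun r hr => ?_⟩
    obtain ⟨f, -, hf⟩ := Submodule.mem_span_finset.mp (hspan r hr)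
    have hf' : ∀ b : E, ∃ p : Polynomial A₀, Polynomial.aeval x p = ((f b : Algebra.adjoin A₀ ({x} : Set E)) : E) := by
      intro b
      have hmem : ((f b : Algebra.adjoin A₀ ({x} : Set E)) : E) ∈
          (Polynomial.aeval x : Polynomial A₀ →ₐ[A₀] E).range := by
        rw [← Algebra.adjoin_singleton_eq_range_aeval]
        exact (f b).2
      obtain ⟨p, hp⟩ := hmem
      exact ⟨p, hp⟩
    choose p hp using hf'
    refine ⟨p, ?_⟩
    rw [← hf]
    refine Finset.sum_congr rfl fun b _ => ?_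
    rw [hp b]
    rfl
  have hmid_f' : ∀ r ∈ Rfin, ∃ k : ℕ, x⁻¹ ^ k * r ∈ Rinf := by
    intro r hr
    obtain ⟨n, hn⟩ := hmid_f r hr
    exact ⟨n, by rwa [mul_comm]⟩
  have hmid_i' : ∀ r ∈ Rinf, ∃ k : ℕ, x ^ k * r ∈ Rfin := by
    intro r hr
    obtain ⟨n, hn⟩ := hmid_i r hr
    exact ⟨n, by rwa [mul_comm]⟩
  have hcap' : ∀ z, z ∈ Rfin → z ∈ Rinf → ∃ α : A₀, algebraMap A₀ E α = z := by
    intro z hz hz'
    obtain ⟨α, hα⟩ := hcap z hz hz'
    exact ⟨α, hα⟩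
  have hsat : ∀ α : A₀, PiDvd ϖ Rfin 1 (algebraMap A₀ E α) →
      PiDvd ϖ Rinf 1 (algebraMap A₀ E α) → ϖ ∣ α := by
    intro α h1 h2
    obtain ⟨r, hr, h1⟩ := piDvd_one_iff.mp h1
    obtain ⟨r', hr', h2⟩ := piDvd_one_iff.mp h2
    have hrr : r = r' := mul_left_cancel₀ hϖE (h1.symm.trans h2)
    obtain ⟨β, hβ⟩ := hcap' r hr (hrr ▸ hr')
    refine ⟨β, hinj ?_⟩
    rw [h1, ← hβ, map_mul]
  have ha2' : PiDvd ϖ Rfin 1 (a ^ 2 - a) := by
    rw [piDvd_one_iff, sq]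
    exact ha2
  have hb2' : PiDvd ϖ Rinf 1 (b ^ 2 - b) := by
    rw [piDvd_one_iff, sq]
    exact hb2
  have hab' : PiDvd ϖ (Rfin ⊔ Rinf) 1 (a - b) := by
    rw [piDvd_one_iff]
    obtain ⟨c, hc, n, hcn⟩ := hab
    refine ⟨c * x⁻¹ ^ n, ?_, hcn⟩
    exact (Rfin ⊔ Rinf).mul_mem ((le_sup_left : Rfin ≤ Rfin ⊔ Rinf) hc)
      ((Rfin ⊔ Rinf).pow_mem ((le_sup_right : Rinf ≤ Rfin ⊔ Rinf) hxinv) n)
  have hconn : ∀ α : A₀, ϖ ∣ α ^ 2 - α → ϖ ∣ α ∨ ϖ ∣ α - 1 := by
    intro α h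
    have e : α ^ 2 - α = α * (α - 1) := by ring
    rw [e] at h
    exact hprime.dvd_or_dvd h
  rcases connected_two ϖ hxy Rfin Rinf hx hxinv hgen' hmid_f' hmid_i' hcap' hsat hconn ha hb
    ha2' hb2' hab' with ⟨h1, h2⟩ | ⟨h1, h2⟩
  · left
    exact ⟨piDvd_one_iff.mp h1, piDvd_one_iff.mp h2⟩
  · right
    constructor
    · obtain ⟨c, hc, h⟩ := piDvd_one_iff.mp h1
      exact ⟨-c, Rfin.neg_mem hc, by rw [mul_neg, ← h]; ring⟩
    · obtain ⟨c, hc, h⟩ := piDvd_one_iff.mp h2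
      exact ⟨-c, Rinf.neg_mem hc, by rw [mul_neg, ← h]; ring⟩

end Fermat.Agent.H67.KLConn
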