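import Fermat.Agent.H67.S16Trick2
import Fermat.Agent.H6.S16UB.SturmMod

/-!
# P-S16: `NoUnitGeFiveStatement` and `NoUnitNineStatement` by the Hecke-weight trick

The argument of `S16Trick2` works with an auxiliary integral cusp form `f` of any weight `k`:
with `W = f H ∈ S_{k+2}` and `V = (T_r f) H` one has
`T_r W - V ≡ a₀ (r^{k+1} - r^{k-1}) V_r(b) mod ℓ^e`, and the finiteness of the set of reductions
of integral cusp forms of weight `k + 2` forces `ℓ^e ∣ (r^{k+1} - r^{k-1}) a₀ b₁`.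

Taking `f = Δ` (level one, restricted to `Γ₀(p)`, `b₁ = 1`) we get: if `H ∈ M₂(Γ₀(p))` has integer
q-expansion with `ℓ ∤ a₀` and `ℓ^e ∣ a_n` for `n ≥ 1`, then `ℓ^e ∣ r² - 1` for all primes
`r ∉ {p, ℓ}`.  The primes `r = 2, 3, 5` give the two statements.
-/

set_option autoImplicit false

namespace Fermat.Agent.H67

open CongruenceSubgroup ModularFormClass UpperHalfPlane

section Seq

variable {R : Type*} [CommRing R]

/-- The weight-`(j+1)` Hecke operator `T_r` on sequences. -/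
def seqT (r j : ℕ) (x : ℕ → R) : ℕ → R :=
  fun n => x (n * r) + if r ∣ n then (r : R) ^ j * x (n / r) else 0

theorem seqT_seqV {r : ℕ} (hr : 0 < r) (j : ℕ) (x : ℕ → R) :
    seqT r j (seqV r x) = x + (r : R) ^ j • seqV r (seqV r x) := by
  funext n
  simp only [seqT, Pi.add_apply, Pi.smul_apply, smul_eq_mul]
  rw [mul_comm n r, seqV_mul hr]
  congr 1
  by_cases h : r ∣ n
  · simp [seqV, h]
  · simp [seqV, h]

theorem iterate_seqV_mem_gen {r : ℕ} (hr : 0 < r) (j : ℕ) (S : Set (ℕ → R))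
    (hsub : ∀ x ∈ S, ∀ y ∈ S, x - y ∈ S) (hsmul : ∀ (c : R), ∀ x ∈ S, c • x ∈ S)
    (hT : ∀ x ∈ S, seqT r j x ∈ S) (u : R) (hu : u * (r : R) ^ j = 1)
    (y : ℕ → R) (hy : y ∈ S) (hVy : seqV r y ∈ S) (i : ℕ) : (seqV r)^[i] y ∈ S := by
  have step : ∀ x : ℕ → R, x ∈ S → seqV r x ∈ S → seqV r (seqV r x) ∈ S := by
    intro x hx hVx
    have h1 : seqV r (seqV r x) = u • (seqT r j (seqV r x) - x) := by
      rw [seqT_seqV hr, add_sub_cancel_left, smul_smul, hu, one_smul]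
    rw [h1]
    exact hsmul u _ (hsub _ (hT _ hVx) _ hx)
  have both : ∀ i : ℕ, (seqV r)^[i] y ∈ S ∧ (seqV r)^[i + 1] y ∈ S := by
    intro i
    induction i with
    | zero => exact ⟨by simpa using hy, by simpa using hVy⟩
    | succ i ih =>
      refine ⟨ih.2, ?_⟩
      have h2 := step _ ih.1 (by
        have := ih.2
        rwa [Function.iterate_succ_apply'] at this)
      rw [Function.iterate_succ_apply', Function.iterate_succ_apply']
      exact h2
  exact (both i).1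

end Seq

section Forms

variable {N : ℕ}

theorem redSet_seqT {k : ℤ} {j : ℕ} (hk : k - 1 = (j : ℤ)) {m r : ℕ} (hr : r.Prime)
    (hrN : ¬ r ∣ N) {x : ℕ → ZMod m}
    (hx : x ∈ redSet N k m) : seqT r j x ∈ redSet N k m := by
  obtain ⟨F, c, hF, hc⟩ := hx
  refine ⟨CuspForm.heckeTLin k hr hrN F,
    fun n => c (n * r) + if r ∣ n then (r : ℤ) ^ j * c (n / r) else 0, fun n => ?_, fun n => ?_⟩
  · rw [CuspForm.coe_heckeTLin_apply,
      ModularFormClass.qCoeff_heckeT F (Fermat.Agent.H48.one_mem_strictPeriods N) hr.ne_zero n,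
      ModularForm.coeffHeckeT_apply, hF, hF, hk, zpow_natCast]
    by_cases h : r ∣ n <;> simp [h]
  · simp only [seqT, hc]
    by_cases h : r ∣ n <;> simp [h]

theorem intQ_heckeTLin {k : ℤ} {j : ℕ} (hk : k - 1 = (j : ℤ)) {r : ℕ} (hr : r.Prime)
    (hrN : ¬ r ∣ N) (f : CuspForm (Gamma0 N) k) (b : ℕ → ℤ)
    (hb : ∀ n, qCoeff ⇑f n = (b n : ℂ)) (n : ℕ) :
    qCoeff ⇑(CuspForm.heckeTLin k hr hrN f) n =
      ((b (n * r) + if r ∣ n then (r : ℤ) ^ j * b (n / r) else 0 : ℤ) : ℂ) := by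
  rw [CuspForm.coe_heckeTLin_apply,
    ModularFormClass.qCoeff_heckeT f (Fermat.Agent.H48.one_mem_strictPeriods N) hr.ne_zero n,
    ModularForm.coeffHeckeT_apply, hb, hb, hk, zpow_natCast]
  by_cases h : r ∣ n <;> simp [h]

theorem mul_mem_redSet_gen {p : ℕ} {k : ℤ} (f : CuspForm (Gamma0 p) k)
    (H : ModularForm (Gamma0 p) 2) (a b : ℕ → ℤ)
    (ha : ∀ n, PowerSeries.coeff n (qExpansion 1 (⇑H)) = (a n : ℂ))
    (hb : ∀ n, qCoeff ⇑f n = (b n : ℂ)) (m : ℕ) (hm : ∀ n, 1 ≤ n → (m : ℤ) ∣ a n) :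
    (fun n => (a 0 : ZMod m) * (b n : ZMod m)) ∈ redSet p (k + 2) m := by
  refine ⟨f.mulModularForm H,
    fun n => ∑ ij ∈ Finset.HasAntidiagonal.antidiagonal n, b ij.1 * a ij.2,
    fun n => ?_, fun n => ?_⟩
  · change (qExpansion 1 ⇑(f.mulModularForm H)).coeff n = _
    rw [CuspForm.coe_mulModularForm,
      ModularForm.qExpansion_mul_coe one_pos (Fermat.Agent.H48.one_mem_strictPeriods p) f H,
      PowerSeries.coeff_mul]
    push_cast
    apply Finset.sum_congr rfl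
    intro ij _
    rw [← hb, ← ha]
    rfl
  · push_cast
    rw [Finset.sum_eq_single (n, 0)]
    · ring
    · rintro ⟨i, j⟩ hij hne
      have hj : 1 ≤ j := by
        rw [Finset.HasAntidiagonal.mem_antidiagonal] at hij
        by_contra h0
        have hj0 : j = 0 := by omega
        subst hj0
        apply hne
        simp only [add_zero] at hij
        rw [hij]
      have : (a j : ZMod m) = 0 := (ZMod.intCast_zmod_eq_zero_iff_dvd _ _).mpr (hm j hj)
      simp [this]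
    · intro h
      exact absurd (Finset.HasAntidiagonal.mem_antidiagonal.mpr (by simp)) h

/-- The Hecke-weight trick with an auxiliary integral cusp form `f` of weight `k = j + 1`. -/
theorem trick2_weight (p : ℕ) (hp : p.Prime) (H : ModularForm (Gamma0 p) 2)
    {k : ℤ} {j : ℕ} (hk : k - 1 = (j : ℤ))
    (f : CuspForm (Gamma0 p) k) (a b : ℕ → ℤ)
    (ha : ∀ n, PowerSeries.coeff n (qExpansion 1 (⇑H)) = (a n : ℂ))
    (hb : ∀ n, PowerSeries.coeff n (qExpansion 1 (⇑f)) = (b n : ℂ))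
    (ℓ r e : ℕ) (hℓ : ℓ.Prime) (hr : r.Prime) (hrp : r ≠ p) (hrℓ : r ≠ ℓ)
    (hb1 : ¬ (ℓ : ℤ) ∣ b 1)
    (ha0 : ¬ (ℓ : ℤ) ∣ a 0) (hak : ∀ n, 1 ≤ n → ((ℓ : ℤ) ^ e) ∣ a n) :
    ℓ ^ e ∣ r ^ 2 - 1 := by
  by_contra hcon
  obtain ⟨m, hm⟩ : ∃ m : ℕ, m = ℓ ^ e := ⟨_, rfl⟩
  rw [← hm] at hcon
  have : NeZero m := ⟨by rw [hm]; exact pow_ne_zero _ hℓ.ne_zero⟩
  have : NeZero p := ⟨hp.ne_zero⟩
  have hrN : ¬ r ∣ p := fun h => hrp ((Nat.prime_dvd_prime_iff_eq hr hp).mp h)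
  have hmZ : (m : ℤ) = (ℓ : ℤ) ^ e := by rw [hm]; push_cast; rfl
  have hak' : ∀ n, 1 ≤ n → (m : ℤ) ∣ a n := by
    intro n hn
    rw [hmZ]
    exact hak n hn
  have hb' : ∀ n, qCoeff ⇑f n = (b n : ℂ) := hb
  have hk2 : (k + 2) - 1 = ((j + 2 : ℕ) : ℤ) := by
    push_cast
    linarith
  have hw := mul_mem_redSet_gen f H a b ha hb' m hak'
  have hv := mul_mem_redSet_gen (CuspForm.heckeTLin k hr hrN f) H a _ ha
    (intQ_heckeTLin hk hr hrN f b hb') m hak'
  have hy : ((r : ZMod m) ^ (j + 2) - (r : ZMod m) ^ j) •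
      (fun n => (a 0 : ZMod m) * (b n : ZMod m)) ∈ redSet p (k + 2) m :=
    redSet_smul _ hw
  have hVy : seqV r (((r : ZMod m) ^ (j + 2) - (r : ZMod m) ^ j) •
      (fun n => (a 0 : ZMod m) * (b n : ZMod m))) ∈ redSet p (k + 2) m := by
    have h1 := redSet_sub (redSet_seqT hk2 hr hrN hw) hv
    convert h1 using 1
    funext n
    simp only [seqV, seqT, Pi.smul_apply, Pi.sub_apply, smul_eq_mul]
    split_ifs <;> push_cast <;> ring
  have hcop : Nat.Coprime r m := by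
    rw [hm]
    exact ((Nat.coprime_primes hr hℓ).mpr hrℓ).pow_right e
  have hu : ((r : ZMod m)⁻¹) ^ (j + 2) * (r : ZMod m) ^ (j + 2) = 1 := by
    rw [← mul_pow, ZMod.inv_mul_of_unit _ ((ZMod.isUnit_iff_coprime r m).mpr hcop), one_pow]
  have hmem := iterate_seqV_mem_gen hr.pos (j + 2) (redSet p (k + 2) m)
    (fun x hx y hy => redSet_sub hx hy) (fun c x hx => redSet_smul c hx)
    (fun x hx => redSet_seqT hk2 hr hrN hx) _ hu _ hy hVy
  have hy1 : (((r : ZMod m) ^ (j + 2) - (r : ZMod m) ^ j) •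
      (fun n => (a 0 : ZMod m) * (b n : ZMod m))) 1 ≠ 0 := by
    intro h0
    apply hcon
    simp only [Pi.smul_apply, smul_eq_mul] at h0
    have h1 : ((((r : ℤ) ^ 2 - 1) * ((r : ℤ) ^ j * (a 0 * b 1)) : ℤ) : ZMod m) = 0 := by
      push_cast
      rw [← h0]
      ring
    rw [ZMod.intCast_zmod_eq_zero_iff_dvd] at h1
    have hℓZ : Prime (ℓ : ℤ) := Nat.prime_iff_prime_int.mp hℓ
    have hrZ : ¬ (ℓ : ℤ) ∣ (r : ℤ) := by
      intro h
      have h' : ℓ ∣ r := Int.natCast_dvd_natCast.mp h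
      exact hrℓ ((Nat.prime_dvd_prime_iff_eq hℓ hr).mp h').symm
    have hc0 : IsCoprime (ℓ : ℤ) ((r : ℤ) ^ j * (a 0 * b 1)) :=
      ((hℓZ.coprime_iff_not_dvd.mpr hrZ).pow_right).mul_right
        ((hℓZ.coprime_iff_not_dvd.mpr ha0).mul_right (hℓZ.coprime_iff_not_dvd.mpr hb1))
    have hc1 : IsCoprime (m : ℤ) ((r : ℤ) ^ j * (a 0 * b 1)) := by
      rw [hmZ]
      exact hc0.pow_left
    have h2 : (m : ℤ) ∣ (r : ℤ) ^ 2 - 1 := hc1.dvd_of_dvd_mul_right h1
    have hle : 1 ≤ r ^ 2 := Nat.one_le_pow _ _ hr.pos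
    have h3 : ((r ^ 2 - 1 : ℕ) : ℤ) = (r : ℤ) ^ 2 - 1 := by
      rw [Nat.cast_sub hle]
      push_cast
      rfl
    rw [← h3] at h2
    exact Int.natCast_dvd_natCast.mp h2
  exact Set.infinite_of_injective_forall_mem (seqV_iterate_injective hr.one_lt _ hy1) hmem
    (redSet_finite (k + 2) m)

/-! ### The discriminant on `Γ₀(N)` -/

open scoped MatrixGroups ModularForm in
theorem gamma0_map_le_SL (N : ℕ) :
    (Subgroup.map (Matrix.SpecialLinearGroup.mapGL ℝ) (Gamma0 N)) ≤ 𝒮ℒ := by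
  rintro _ ⟨γ, -, rfl⟩
  exact ⟨γ, rfl⟩

/-- The discriminant as a cusp form of weight 12 on `Γ₀(N)`. -/
noncomputable def deltaLevel (N : ℕ) : CuspForm (Gamma0 N) 12 where
  toFun := CuspForm.discriminant
  slash_action_eq' γ hγ := CuspForm.discriminant.slash_action_eq' γ (gamma0_map_le_SL N hγ)
  holo' := CuspForm.discriminant.holo'
  zero_at_cusps' hc := CuspForm.discriminant.zero_at_cusps' (hc.mono (gamma0_map_le_SL N))

theorem coe_deltaLevel (N : ℕ) : (⇑(deltaLevel N) : ℍ → ℂ) = ModularForm.discriminant := rfl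

/-- The integral q-expansion of `Δ`. -/
noncomputable def tauZ (n : ℕ) : ℤ := PowerSeries.coeff n Fermat.Agent.H6.S16UB.deltaSeries

theorem qExpansion_deltaLevel_coeff (N n : ℕ) :
    PowerSeries.coeff n (qExpansion 1 (⇑(deltaLevel N))) = (tauZ n : ℂ) := by
  rw [coe_deltaLevel, Fermat.Agent.H6.S16UB.qExpansion_discriminant_eq_deltaSeries]
  simp [tauZ]

theorem tauZ_one : tauZ 1 = 1 := by
  have h := qExpansion_deltaLevel_coeff 1 1
  rw [coe_deltaLevel, ModularForm.discriminant_qExpansion_coeff_one] at h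
  exact_mod_cast h.symm

/-- **Key congruence**: if `H ∈ M₂(Γ₀(p))` has integer q-expansion `a` with `ℓ ∤ a₀` and
`ℓ^e ∣ a_n` for all `n ≥ 1`, then `ℓ^e ∣ r² - 1` for every prime `r ∉ {p, ℓ}`. -/
theorem dvd_sq_sub_one_of_unit (p : ℕ) (hp : p.Prime) (H : ModularForm (Gamma0 p) 2)
    (a : ℕ → ℤ) (ha : ∀ n, PowerSeries.coeff n (qExpansion 1 (⇑H)) = (a n : ℂ))
    (ℓ r e : ℕ) (hℓ : ℓ.Prime) (hr : r.Prime) (hrp : r ≠ p) (hrℓ : r ≠ ℓ)
    (ha0 : ¬ (ℓ : ℤ) ∣ a 0) (hak : ∀ n, 1 ≤ n → ((ℓ : ℤ) ^ e) ∣ a n) :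
    ℓ ^ e ∣ r ^ 2 - 1 := by
  have hk : (12 : ℤ) - 1 = ((11 : ℕ) : ℤ) := by norm_num
  refine trick2_weight p hp H hk (deltaLevel p) a tauZ ha (qExpansion_deltaLevel_coeff p)
    ℓ r e hℓ hr hrp hrℓ ?_ ha0 hak
  rw [tauZ_one]
  intro h
  have h1 : (ℓ : ℤ) = 1 := Int.eq_one_of_dvd_one (by positivity) h
  exact hℓ.one_lt.ne' (by exact_mod_cast h1)

/-- (UB5) -/
theorem noUnitGeFive : Fermat.Agent.H6.S16UB.NoUnitGeFiveStatement := by
  intro ℓ hℓ h5 p hp _ H a ha hdiv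
  by_contra h0
  have hak : ∀ n, 1 ≤ n → ((ℓ : ℤ) ^ 1) ∣ a n := by
    intro n hn
    have := hdiv n hn
    push_cast at this
    exact this
  by_cases hp2 : p = 2
  · have h := dvd_sq_sub_one_of_unit p hp H a ha ℓ 3 1 hℓ Nat.prime_three
      (by omega) (by omega) h0 hak
    have hle : ℓ ≤ 8 := Nat.le_of_dvd (by norm_num) (by simpa using h)
    have h8 : ℓ ∣ 8 := by simpa using h
    interval_cases ℓ <;> first | omega | exact absurd hℓ (by norm_num)
  · have h := dvd_sq_sub_one_of_unit p hp H a ha ℓ 2 1 hℓ Nat.prime_two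
      (fun h => hp2 h.symm) (by omega) h0 hak
    have hle : ℓ ≤ 3 := Nat.le_of_dvd (by norm_num) (by simpa using h)
    omega

/-- (UB9) -/
theorem noUnitNine : Fermat.Agent.H6.S16UB.NoUnitNineStatement := by
  intro p hp hp3 H a ha hdiv
  by_contra h0
  have hak : ∀ n, 1 ≤ n → (((3 : ℕ) : ℤ) ^ 2) ∣ a n := by
    intro n hn
    have := hdiv n hn
    push_cast at this
    push_cast
    exact this
  by_cases hp2 : p = 2
  · have h := dvd_sq_sub_one_of_unit p hp H a ha 3 5 2 Nat.prime_three Nat.prime_five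
      (by omega) (by omega) h0 hak
    omega
  · have h := dvd_sq_sub_one_of_unit p hp H a ha 3 2 2 Nat.prime_three Nat.prime_two
      (fun h => hp2 h.symm) (by omega) h0 hak
    omega

end Forms

end Fermat.Agent.H67
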