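import Fermat.Agent.H20.S16.Interfaces
import Fermat.Agent.H48.Lattice

/-!
# P-S16, TRICK-2 (Hecke weight trick)

If `H ∈ M₂(Γ₀(p))` has integer q-expansion `a` with `ℓ ∤ a₀` and `ℓ^e ∣ a_k` for all `k ≥ 1`, and
`f ∈ S₂(Γ₀(p))` has integer q-expansion `b` with `ℓ ∤ b₁`, then `ℓ^e ∣ r³ - r` for every prime
`r ≠ p, ℓ`.

Proof.  Put `m = ℓ^e`, `R = ℤ/m`.  Let `Σ ⊆ R^ℕ` be the set of reductions of integral q-expansions
of cusp forms of weight 4 on `Γ₀(p)`; it is finite (the lattice of integral forms is finitely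
generated), stable under differences, `R`-scalars and the weight-4 Hecke operator `T_r`.
It contains `w = a₀ b` (reduction of `f H`) and `v = a₀ (T_r b)` (reduction of `(T_r f) H`, with the
weight-2 operator), hence `T_r w - v = V_r ((r³ - r) w)`.  With `y = (r³ - r) w` we get
`y, V y ∈ Σ` and then `V^j y ∈ Σ` for all `j` from `T_r V = 1 + r³ V²`.  If `y₁ ≠ 0` the `V^j y` are
pairwise distinct, contradicting finiteness.  So `(r³ - r) a₀ b₁ = 0` in `R`.
-/

set_option autoImplicit false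

namespace Fermat.Agent.H67

open CongruenceSubgroup ModularFormClass UpperHalfPlane

section Seq

variable {R : Type*} [CommRing R]

/-- The operator `V_r` on sequences: `(V x)_n = x_{n/r}` if `r ∣ n`, else `0`. -/
def seqV (r : ℕ) (x : ℕ → R) : ℕ → R := fun n => if r ∣ n then x (n / r) else 0

/-- The weight-4 Hecke operator `T_r` on sequences. -/
def seqT3 (r : ℕ) (x : ℕ → R) : ℕ → R :=
  fun n => x (n * r) + if r ∣ n then (r : R) ^ 3 * x (n / r) else 0

theorem seqV_mul {r : ℕ} (hr : 0 < r) (x : ℕ → R) (n : ℕ) : seqV r x (r * n) = x n := by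
  simp [seqV, Nat.mul_div_cancel_left n hr]

theorem seqT3_seqV {r : ℕ} (hr : 0 < r) (x : ℕ → R) :
    seqT3 r (seqV r x) = x + (r : R) ^ 3 • seqV r (seqV r x) := by
  funext n
  simp only [seqT3, Pi.add_apply, Pi.smul_apply, smul_eq_mul]
  rw [mul_comm n r, seqV_mul hr]
  congr 1
  by_cases h : r ∣ n
  · simp [seqV, h]
  · simp [seqV, h]

theorem iterate_seqV_mul {r : ℕ} (hr : 0 < r) (x : ℕ → R) (j n : ℕ) :
    (seqV r)^[j] x (r ^ j * n) = x n := by
  induction j generalizing n with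
  | zero => simp
  | succ j ih =>
    rw [Function.iterate_succ_apply', pow_succ, mul_comm (r ^ j) r, mul_assoc, seqV_mul hr, ih]

theorem iterate_seqV_of_not_dvd {r : ℕ} (hr : 0 < r) (x : ℕ → R) (j n : ℕ) (h : ¬ r ^ j ∣ n) :
    (seqV r)^[j] x n = 0 := by
  induction j generalizing n with
  | zero => simp at h
  | succ j ih =>
    rw [Function.iterate_succ_apply']
    by_cases hrn : r ∣ n
    · obtain ⟨n', rfl⟩ := hrn
      rw [seqV_mul hr]
      apply ih
      intro hd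
      apply h
      rw [pow_succ, mul_comm]
      exact Nat.mul_dvd_mul_left r hd
    · simp [seqV, hrn]

theorem seqV_iterate_injective {r : ℕ} (hr : 1 < r) (y : ℕ → R) (hy : y 1 ≠ 0) :
    Function.Injective (fun j => (seqV r)^[j] y) := by
  have key : ∀ j j' : ℕ, j < j' → (seqV r)^[j] y ≠ (seqV r)^[j'] y := by
    intro j j' hlt h
    have h1 := congrFun h (r ^ j)
    have h2 : (seqV r)^[j] y (r ^ j) = y 1 := by
      simpa using iterate_seqV_mul (by omega) y j 1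
    have h3 : (seqV r)^[j'] y (r ^ j) = 0 := by
      apply iterate_seqV_of_not_dvd (by omega)
      rw [Nat.pow_dvd_pow_iff_le_right hr]
      omega
    rw [h2, h3] at h1
    exact hy h1
  intro j j' h
  by_contra hne
  rcases Nat.lt_or_gt_of_ne hne with hlt | hlt
  · exact key j j' hlt h
  · exact key j' j hlt h.symm

theorem iterate_seqV_mem {r : ℕ} (hr : 0 < r) (S : Set (ℕ → R))
    (hsub : ∀ x ∈ S, ∀ y ∈ S, x - y ∈ S) (hsmul : ∀ (c : R), ∀ x ∈ S, c • x ∈ S)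
    (hT : ∀ x ∈ S, seqT3 r x ∈ S) (u : R) (hu : u * (r : R) ^ 3 = 1)
    (y : ℕ → R) (hy : y ∈ S) (hVy : seqV r y ∈ S) (j : ℕ) : (seqV r)^[j] y ∈ S := by
  have step : ∀ x : ℕ → R, x ∈ S → seqV r x ∈ S → seqV r (seqV r x) ∈ S := by
    intro x hx hVx
    have h1 : seqV r (seqV r x) = u • (seqT3 r (seqV r x) - x) := by
      rw [seqT3_seqV hr, add_sub_cancel_left, smul_smul, hu, one_smul]
    rw [h1]
    exact hsmul u _ (hsub _ (hT _ hVx) _ hx)
  have both : ∀ j : ℕ, (seqV r)^[j] y ∈ S ∧ (seqV r)^[j + 1] y ∈ S := by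
    intro j
    induction j with
    | zero => exact ⟨by simpa using hy, by simpa using hVy⟩
    | succ j ih =>
      refine ⟨ih.2, ?_⟩
      have h2 := step _ ih.1 (by
        have := ih.2
        rwa [Function.iterate_succ_apply'] at this)
      rw [Function.iterate_succ_apply', Function.iterate_succ_apply']
      exact h2
  exact (both j).1

end Seq

section Forms

variable {N : ℕ}

/-- The `n`-th q-coefficient as an additive map. -/
noncomputable def qCoeffAddHom (N : ℕ) (k : ℤ) (n : ℕ) : CuspForm (Gamma0 N) k →+ ℂ where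
  toFun F := qCoeff ⇑F n
  map_zero' := Fermat.Agent.H48.qCoeff_zero n
  map_add' F G := Fermat.Agent.H48.qCoeff_add F G n

/-- The set of reductions modulo `m` of integral q-expansions of cusp forms of weight `k` on
`Γ₀(N)`. -/
def redSet (N : ℕ) (k : ℤ) (m : ℕ) : Set (ℕ → ZMod m) :=
  {x | ∃ (F : CuspForm (Gamma0 N) k) (c : ℕ → ℤ),
    (∀ n, qCoeff ⇑F n = (c n : ℂ)) ∧ ∀ n, x n = (c n : ZMod m)}

theorem redSet_sub {k : ℤ} {m : ℕ} {x y : ℕ → ZMod m} (hx : x ∈ redSet N k m)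
    (hy : y ∈ redSet N k m) : x - y ∈ redSet N k m := by
  obtain ⟨F, c, hF, hc⟩ := hx
  obtain ⟨G, d, hG, hd⟩ := hy
  refine ⟨F - G, fun n => c n - d n, fun n => ?_, fun n => ?_⟩
  · rw [Fermat.Agent.H48.qCoeff_sub, hF, hG]
    push_cast
    rfl
  · simp [hc, hd]

theorem redSet_smul {k : ℤ} {m : ℕ} (t : ZMod m) {x : ℕ → ZMod m} (hx : x ∈ redSet N k m) :
    t • x ∈ redSet N k m := by
  obtain ⟨F, c, hF, hc⟩ := hx
  obtain ⟨t', rfl⟩ := ZMod.intCast_surjective t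
  refine ⟨t' • F, fun n => t' * c n, fun n => ?_, fun n => ?_⟩
  · rw [Fermat.Agent.H48.qCoeff_zsmul, hF]
    push_cast
    rfl
  · simp [hc]

theorem redSet_seqT3 {m r : ℕ} (hr : r.Prime) (hrN : ¬ r ∣ N) {x : ℕ → ZMod m}
    (hx : x ∈ redSet N (2 + 2) m) : seqT3 r x ∈ redSet N (2 + 2) m := by
  obtain ⟨F, c, hF, hc⟩ := hx
  refine ⟨CuspForm.heckeTLin (2 + 2) hr hrN F,
    fun n => c (n * r) + if r ∣ n then (r : ℤ) ^ 3 * c (n / r) else 0, fun n => ?_, fun n => ?_⟩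
  · rw [CuspForm.coe_heckeTLin_apply,
      ModularFormClass.qCoeff_heckeT F (Fermat.Agent.H48.one_mem_strictPeriods N) hr.ne_zero n,
      ModularForm.coeffHeckeT_apply, hF, hF]
    have h3 : ((2 : ℤ) + 2 - 1) = ((3 : ℕ) : ℤ) := by norm_num
    rw [h3, zpow_natCast]
    by_cases h : r ∣ n <;> simp [h]
  · simp only [seqT3, hc]
    by_cases h : r ∣ n <;> simp [h]

theorem redSet_finite [NeZero N] (k : ℤ) (m : ℕ) [NeZero m] : (redSet N k m).Finite := by
  obtain ⟨S, hS⟩ := CuspForm.intLattice_fg N k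
  have hSmem : ∀ g : S, ∃ c : ℕ → ℤ,
      ∀ n, qCoeff ⇑(g : CuspForm (Gamma0 N) k) n = (c n : ℂ) := by
    intro g
    have hg : (g : CuspForm (Gamma0 N) k) ∈ CuspForm.intLattice N k := by
      rw [← hS]
      exact Submodule.subset_span g.2
    have := (Fermat.Agent.H48.mem_intLattice_iff (g : CuspForm (Gamma0 N) k)).mp hg
    choose c hc using this
    exact ⟨c, hc⟩
  choose c hc using hSmem
  let Φ : (S → ZMod m) → (ℕ → ZMod m) := fun μ n => ∑ g : S, μ g * (c g n : ZMod m)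
  apply (Set.finite_range Φ).subset
  rintro x ⟨F, d, hF, hd⟩
  have hFmem : F ∈ CuspForm.intLattice N k :=
    (Fermat.Agent.H48.mem_intLattice_iff F).mpr fun n => ⟨d n, hF n⟩
  rw [← hS, Submodule.mem_span_finset'] at hFmem
  obtain ⟨μ, hμ⟩ := hFmem
  refine ⟨fun g => (μ g : ZMod m), ?_⟩
  funext n
  have key : (d n : ℂ) = ((∑ g : S, μ g * c g n : ℤ) : ℂ) := by
    rw [← hF, ← hμ]
    change qCoeffAddHom N k n (∑ g : S, μ g • (g : CuspForm (Gamma0 N) k)) = _
    rw [map_sum]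
    push_cast
    apply Finset.sum_congr rfl
    intro g _
    rw [map_zsmul]
    change μ g • qCoeff ⇑(g : CuspForm (Gamma0 N) k) n = _
    rw [hc g n]
    simp
  have key' : d n = ∑ g : S, μ g * c g n := by exact_mod_cast key
  simp only [Φ, hd, key']
  push_cast
  rfl

theorem mul_mem_redSet {p : ℕ} (f : CuspForm (Gamma0 p) 2) (H : ModularForm (Gamma0 p) 2)
    (a b : ℕ → ℤ)
    (ha : ∀ k, PowerSeries.coeff k (qExpansion 1 (⇑H)) = (a k : ℂ))
    (hb : ∀ k, qCoeff ⇑f k = (b k : ℂ)) (m : ℕ) (hm : ∀ k, 1 ≤ k → (m : ℤ) ∣ a k) :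
    (fun n => (a 0 : ZMod m) * (b n : ZMod m)) ∈ redSet p (2 + 2) m := by
  refine ⟨f.mulModularForm H, fun n => ∑ ij ∈ Finset.HasAntidiagonal.antidiagonal n, b ij.1 * a ij.2,
    fun n => ?_, fun n => ?_⟩
  · change (qExpansion 1 ⇑(f.mulModularForm H)).coeff n = _
    rw [CuspForm.coe_mulModularForm,
      ModularForm.qExpansion_mul_coe one_pos (Fermat.Agent.H48.one_mem_strictPeriods p) f H,
      PowerSeries.coeff_mul]
    push_cast
    apply Finset.sum_congr rfl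
    intro ij _
    rw [← hb, ← ha]
    rfl
  · push_cast
    rw [Finset.sum_eq_single (n, 0)]
    · ring
    · rintro ⟨i, j⟩ hij hne
      have hj : 1 ≤ j := by
        rw [Finset.HasAntidiagonal.mem_antidiagonal] at hij
        by_contra h0
        have hj0 : j = 0 := by omega
        subst hj0
        apply hne
        simp only [add_zero] at hij
        rw [hij]
      have : (a j : ZMod m) = 0 := (ZMod.intCast_zmod_eq_zero_iff_dvd _ _).mpr (hm j hj)
      simp [this]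
    · intro h
      exact absurd (Finset.HasAntidiagonal.mem_antidiagonal.mpr (by simp)) h

/-- TRICK-2, general form (`ℓ ∤ b₁` instead of `b₁ = 1`). -/
theorem trick2_gen (p : ℕ) (hp : p.Prime) (H : ModularForm (Gamma0 p) 2)
    (f : CuspForm (Gamma0 p) 2) (a b : ℕ → ℤ)
    (ha : ∀ k, PowerSeries.coeff k (qExpansion 1 (⇑H)) = (a k : ℂ))
    (hb : ∀ k, PowerSeries.coeff k (qExpansion 1 (⇑f)) = (b k : ℂ))
    (ℓ r e : ℕ) (hℓ : ℓ.Prime) (hr : r.Prime) (hrp : r ≠ p) (hrℓ : r ≠ ℓ)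
    (hb1 : ¬ (ℓ : ℤ) ∣ b 1)
    (ha0 : ¬ (ℓ : ℤ) ∣ a 0) (hak : ∀ k, 1 ≤ k → ((ℓ : ℤ) ^ e) ∣ a k) :
    ℓ ^ e ∣ r ^ 3 - r := by
  by_contra hcon
  obtain ⟨m, hm⟩ : ∃ m : ℕ, m = ℓ ^ e := ⟨_, rfl⟩
  rw [← hm] at hcon
  have : NeZero m := ⟨by rw [hm]; exact pow_ne_zero _ hℓ.ne_zero⟩
  have : NeZero p := ⟨hp.ne_zero⟩
  have hrN : ¬ r ∣ p := fun h => hrp ((Nat.prime_dvd_prime_iff_eq hr hp).mp h)
  have hmZ : (m : ℤ) = (ℓ : ℤ) ^ e := by rw [hm]; push_cast; rfl
  have hak' : ∀ k, 1 ≤ k → (m : ℤ) ∣ a k := by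
    intro k hk
    rw [hmZ]
    exact hak k hk
  have hb' : ∀ k, qCoeff ⇑f k = (b k : ℂ) := hb
  have hw := mul_mem_redSet f H a b ha hb' m hak'
  have hTf : ∀ n, qCoeff ⇑(CuspForm.heckeTLin 2 hr hrN f) n =
      ((b (n * r) + if r ∣ n then (r : ℤ) * b (n / r) else 0 : ℤ) : ℂ) := by
    intro n
    rw [Fermat.Agent.H48.qCoeff_heckeTLin hr hrN f n, hb', hb']
    by_cases h : r ∣ n <;> simp [h]
  have hv := mul_mem_redSet (CuspForm.heckeTLin 2 hr hrN f) H a _ ha hTf m hak'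
  have hy : ((r : ZMod m) ^ 3 - (r : ZMod m)) •
      (fun n => (a 0 : ZMod m) * (b n : ZMod m)) ∈ redSet p (2 + 2) m :=
    redSet_smul _ hw
  have hVy : seqV r (((r : ZMod m) ^ 3 - (r : ZMod m)) •
      (fun n => (a 0 : ZMod m) * (b n : ZMod m))) ∈ redSet p (2 + 2) m := by
    have h1 := redSet_sub (redSet_seqT3 hr hrN hw) hv
    convert h1 using 1
    funext n
    simp only [seqV, seqT3, Pi.smul_apply, Pi.sub_apply, smul_eq_mul]
    split_ifs <;> push_cast <;> ring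
  have hcop : Nat.Coprime r m := by
    rw [hm]
    exact ((Nat.coprime_primes hr hℓ).mpr hrℓ).pow_right e
  have hu : ((r : ZMod m)⁻¹) ^ 3 * (r : ZMod m) ^ 3 = 1 := by
    rw [← mul_pow, ZMod.inv_mul_of_unit _ ((ZMod.isUnit_iff_coprime r m).mpr hcop), one_pow]
  have hmem := iterate_seqV_mem hr.pos (redSet p (2 + 2) m)
    (fun x hx y hy => redSet_sub hx hy) (fun c x hx => redSet_smul c hx)
    (fun x hx => redSet_seqT3 hr hrN hx) _ hu _ hy hVy
  have hy1 : (((r : ZMod m) ^ 3 - (r : ZMod m)) •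
      (fun n => (a 0 : ZMod m) * (b n : ZMod m))) 1 ≠ 0 := by
    intro h0
    apply hcon
    simp only [Pi.smul_apply, smul_eq_mul] at h0
    have hle : r ≤ r ^ 3 := Nat.le_self_pow (by norm_num) r
    have h1 : (((r : ℤ) ^ 3 - r) * (a 0 * b 1) : ℤ) = (0 : ZMod m) := by
      push_cast
      exact h0
    rw [ZMod.intCast_zmod_eq_zero_iff_dvd] at h1
    have hℓZ : Prime (ℓ : ℤ) := Nat.prime_iff_prime_int.mp hℓ
    have hc0 : IsCoprime (ℓ : ℤ) (a 0 * b 1) :=
      (hℓZ.coprime_iff_not_dvd.mpr ha0).mul_right (hℓZ.coprime_iff_not_dvd.mpr hb1)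
    have hc1 : IsCoprime (m : ℤ) (a 0 * b 1) := by
      rw [hmZ]
      exact hc0.pow_left
    have h2 : (m : ℤ) ∣ (r : ℤ) ^ 3 - r := hc1.dvd_of_dvd_mul_right h1
    have h3 : ((r ^ 3 - r : ℕ) : ℤ) = (r : ℤ) ^ 3 - r := by
      rw [Nat.cast_sub hle]
      push_cast
      rfl
    rw [← h3] at h2
    exact Int.natCast_dvd_natCast.mp h2
  exact Set.infinite_of_injective_forall_mem (seqV_iterate_injective hr.one_lt _ hy1) hmem
    (redSet_finite (2 + 2) m)

/-- TRICK-2 in the form of the P-S16 interface. -/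
theorem trick2 : Fermat.Agent.H20.S16.Trick2Statement := by
  intro p hp H f a b ha hb hb1 ℓ r e hℓ hr hrp hrℓ ha0 hak
  refine trick2_gen p hp H f a b ha hb ℓ r e hℓ hr hrp hrℓ ?_ ha0 hak
  rw [hb1]
  intro h
  have h1 : (ℓ : ℤ) = 1 := Int.eq_one_of_dvd_one (by positivity) h
  exact hℓ.one_lt.ne' (by exact_mod_cast h1)

end Forms

end Fermat.Agent.H67
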